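/-
P-ES / KL route B, row 498 KL-M-CUSP (helper60): the `q`-order is a place of the modular
function field `E₀ = ModelField K₁ N` over `K₁` (the cusp `∞`).
-/
import Fermat.Agent.H22.ES.KLModel
import Fermat.Agent.H2.KLBRCusp

set_option autoImplicit false
set_option linter.unusedSectionVars false

noncomputable section

namespace Fermat.Agent.H60

open ModularCurve AlgebraicCurve Fermat.Agent.H22.KL

/-- The `q`-expansion of `j` over any field of characteristic zero has order `-1`. -/
theorem klm_order_coeffEmb_jq (K₁ : Type) [Field K₁] [Algebra ℚ K₁] :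
    (coeffEmb K₁ jq).order = -1 := by
  have h1 : (coeffEmb K₁ jq).coeff (-1) = 1 := by
    rw [coeffEmb_coeff, coeff_jq_neg_one, map_one]
  have hne : coeffEmb K₁ jq ≠ 0 := by
    intro h0
    rw [h0, HahnSeries.coeff_zero] at h1
    exact zero_ne_one h1
  have hle : (coeffEmb K₁ jq).order ≤ -1 :=
    HahnSeries.order_le_of_coeff_ne_zero (by rw [h1]; exact one_ne_zero)
  by_contra hcon
  have hlt : (coeffEmb K₁ jq).order < -1 := lt_of_le_of_ne hle hcon
  apply hne
  rw [← HahnSeries.coeff_order_eq_zero, coeffEmb_coeff, coeff_jq_of_lt hlt, map_zero]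

/-- **KL-M-CUSP**. -/
theorem modelCuspPlace (N : ℕ) [NeZero N] : ModelCuspPlaceStatement N := by
  intro K₁ _ _
  let ι' : ModelField K₁ N →+* LaurentSeries K₁ :=
    ((laurentBaseChange K₁ (modularFunctionFieldFull N)).val : _ →+* LaurentSeries K₁)
  have hconst : ∀ a : K₁, a ≠ 0 → (ι' (algebraMap K₁ (ModelField K₁ N) a)).order = 0 := by
    intro a ha
    have : ι' (algebraMap K₁ (ModelField K₁ N) a) = HahnSeries.single 0 a := by
      show algebraMap K₁ (LaurentSeries K₁) a = _
      exact algebraMap_laurentSeries_eq_single K₁ a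
    rw [this, HahnSeries.order_single ha]
  have hjq : jq ∈ modularFunctionFieldFull N := by
    have h := jqd_mem_full N (one_dvd N)
    rwa [qExpand_one_apply] at h
  let x : ModelField K₁ N := ⟨coeffEmb K₁ jq, coeffEmb_mem_laurentBaseChange K₁ hjq⟩
  have hx : (ι' x).order = -1 := klm_order_coeffEmb_jq K₁
  obtain ⟨P, hP⟩ := Fermat.Agent.H2.klbr_cusp_place ι' hconst x hx
  exact ⟨P, fun f _ => hP f⟩

end Fermat.Agent.H60

end
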