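import Mathlib
import Fermat.Prelude.Def_FLTPrelim_Ramification

/-!
# S13 / WP6: Eisenstein irreducibility of a polynomial all of whose roots are non-integral

Let `ψ ∈ ℤ[X]` have leading coefficient a prime `p`, let `A` be a valuation subring of `ℚ̄` lying
over `p`, and suppose that no root of `ψ` lies in `A`.  If `e ∈ ℤ` is such that `p ∤ ψ(e)`, then
the reversed shifted polynomial `y ^ d * ψ (e + 1 / y)` is an Eisenstein polynomial at `p`; hence
`ψ` is irreducible over `ℚ`.  Consequently every Galois-stable set of roots of `ψ` that is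
nonempty has at least `ψ.natDegree` elements.
-/

set_option autoImplicit false

noncomputable section

open Polynomial

namespace Fermat.Agent.H60

section Valuation

variable {L : Type*} [Field L] (A : ValuationSubring L)

theorem wp6_coeff_X_sub_C_mul (a : L) (Q : L[X]) (k : ℕ) :
    ((X - C a) * Q).coeff k = (if k = 0 then 0 else Q.coeff (k - 1)) - a * Q.coeff k := by
  rw [sub_mul, coeff_sub, coeff_C_mul]
  congr 1
  cases k with
  | zero => simp
  | succ n => simp [coeff_X_mul]

/-- The coefficients of `∏ (X - s_j)` with all `s_j` in the maximal ideal: all are integral, and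
all but the leading one lie in the maximal ideal. -/
theorem wp6_coeff_prod (s : Multiset L) (hs : ∀ a ∈ s, A.valuation a < 1) :
    (∀ k, A.valuation ((s.map (fun a => X - C a)).prod.coeff k) ≤ 1) ∧
    (∀ k, k < Multiset.card s →
      A.valuation ((s.map (fun a => X - C a)).prod.coeff k) < 1) := by
  induction s using Multiset.induction_on with
  | empty =>
    refine ⟨fun k => ?_, fun k hk => absurd hk (by simp)⟩
    simp only [Multiset.map_zero, Multiset.prod_zero, coeff_one]
    split_ifs
    · simp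
    · simp
  | cons a s ih =>
    have ha : A.valuation a < 1 := hs a (Multiset.mem_cons_self a s)
    obtain ⟨ih1, ih2⟩ := ih (fun b hb => hs b (Multiset.mem_cons_of_mem hb))
    have hprod : ((a ::ₘ s).map (fun a => X - C a)).prod =
        (X - C a) * (s.map (fun a => X - C a)).prod := by
      rw [Multiset.map_cons, Multiset.prod_cons]
    rw [hprod]
    set Q := (s.map (fun a => X - C a)).prod with hQ
    have hterm2 : ∀ k, A.valuation (a * Q.coeff k) < 1 := by
      intro k
      rw [map_mul]
      calc A.valuation a * A.valuation (Q.coeff k) ≤ A.valuation a * 1 :=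
            mul_le_mul_right (ih1 k) _
        _ = A.valuation a := mul_one _
        _ < 1 := ha
    refine ⟨fun k => ?_, fun k hk => ?_⟩
    · rw [wp6_coeff_X_sub_C_mul]
      refine le_trans (A.valuation.map_sub _ _) (max_le ?_ (hterm2 k).le)
      split_ifs
      · simp
      · exact ih1 _
    · rw [wp6_coeff_X_sub_C_mul]
      refine lt_of_le_of_lt (A.valuation.map_sub _ _) (max_lt ?_ (hterm2 k))
      split_ifs with hk0
      · simp
      · apply ih2
        rw [Multiset.card_cons] at hk
        omega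

/-- An integer of valuation `< 1` in a valuation ring over `p` is divisible by `p`. -/
theorem wp6_dvd_of_valuation_lt_one (p : ℕ) (hp : p.Prime) (hA : A.valuation (p : L) < 1)
    (m : ℤ) (hm : A.valuation (m : L) < 1) : (p : ℤ) ∣ m := by
  by_contra h
  have hpi : Irreducible (p : ℤ) := (Nat.prime_iff_prime_int.mp hp).irreducible
  have hcop : IsCoprime (p : ℤ) m := (hpi.coprime_iff_not_dvd).mpr h
  obtain ⟨u, w, huw⟩ := hcop
  have hone : ((u : L) * (p : L) + (w : L) * (m : L)) = 1 := by
    have := congrArg (Int.cast : ℤ → L) huw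
    push_cast at this
    exact this
  have hu : A.valuation (u : L) ≤ 1 := (A.valuation_le_one_iff _).mpr (intCast_mem A u)
  have hw : A.valuation (w : L) ≤ 1 := (A.valuation_le_one_iff _).mpr (intCast_mem A w)
  have h1 : A.valuation ((u : L) * (p : L)) < 1 := by
    rw [map_mul]
    calc A.valuation (u : L) * A.valuation (p : L) ≤ 1 * A.valuation (p : L) :=
          mul_le_mul_left hu _
      _ = A.valuation (p : L) := one_mul _
      _ < 1 := hA
  have h2 : A.valuation ((w : L) * (m : L)) < 1 := by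
    rw [map_mul]
    calc A.valuation (w : L) * A.valuation (m : L) ≤ 1 * A.valuation (m : L) :=
          mul_le_mul_left hw _
      _ = A.valuation (m : L) := one_mul _
      _ < 1 := hm
  have hlt : A.valuation ((u : L) * (p : L) + (w : L) * (m : L)) < 1 :=
    lt_of_le_of_lt (A.valuation.map_add _ _) (max_lt h1 h2)
  rw [hone, map_one] at hlt
  exact lt_irrefl _ hlt

end Valuation


section Main

local notation "K" => AlgebraicClosure ℚ

/-- Eisenstein step: the reverse of the shifted polynomial is irreducible over `ℤ`. -/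
theorem wp6_reverse_irreducible (p : ℕ) (hp : p.Prime) (ψ : ℤ[X]) (hd : 0 < ψ.natDegree)
    (hlead : ψ.leadingCoeff = p) (A : ValuationSubring K)
    (hA : A.LiesOverPrime p)
    (hroots : ∀ r : K, aeval r ψ = 0 → r ∉ A)
    (e : ℤ) (he : ¬ (p : ℤ) ∣ ψ.eval e) :
    Irreducible (ψ.comp (X + C e)).reverse ∧
      (ψ.comp (X + C e)).reverse.IsPrimitive ∧
      (ψ.comp (X + C e)).reverse.natDegree = ψ.natDegree := by
  have hpA : A.valuation ((p : ℕ) : K) < 1 := (A.mem_nonunits_iff).mp hA
  set g : ℤ[X] := ψ.comp (X + C e) with hg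
  have hXe : (X + C e : ℤ[X]).natDegree = 1 := natDegree_X_add_C e
  have hg_deg : g.natDegree = ψ.natDegree := by rw [hg, natDegree_comp, hXe, mul_one]
  have hg_lead : g.leadingCoeff = p := by
    rw [hg, leadingCoeff_comp (by rw [hXe]; exact one_ne_zero), hlead, leadingCoeff_X_add_C,
      one_pow, mul_one]
  have hg0 : g.coeff 0 = ψ.eval e := by
    rw [coeff_zero_eq_eval_zero, hg, eval_comp]; simp
  have hc0 : ψ.eval e ≠ 0 := fun h => he (h ▸ dvd_zero _)
  have hg_trail : g.natTrailingDegree = 0 := by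
    rw [natTrailingDegree_eq_zero]
    right
    rw [hg0]; exact hc0
  set F : ℤ[X] := g.reverse with hF
  have hF_deg : F.natDegree = ψ.natDegree := by
    rw [hF, reverse_natDegree, hg_trail, Nat.sub_zero, hg_deg]
  have hF_lead : F.leadingCoeff = ψ.eval e := by
    rw [hF, reverse_leadingCoeff, trailingCoeff, hg_trail, hg0]
  have hF0 : F.coeff 0 = p := by rw [hF, coeff_zero_reverse, hg_lead]
  have hF_ne : F ≠ 0 := by
    intro h
    rw [h, leadingCoeff_zero] at hF_lead
    exact hc0 hF_lead.symm
  -- the roots of `F` in `K` have valuation `< 1`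
  have hinj : Function.Injective (algebraMap ℤ K) := (algebraMap ℤ K).injective_int
  have hFK_deg : (F.map (algebraMap ℤ K)).natDegree = ψ.natDegree := by
    rw [natDegree_map_eq_of_injective hinj, hF_deg]
  have hFK_lead : (F.map (algebraMap ℤ K)).leadingCoeff = ((ψ.eval e : ℤ) : K) := by
    rw [leadingCoeff_map_of_injective hinj, hF_lead]; rfl
  have hsplit : (F.map (algebraMap ℤ K)).Splits := IsAlgClosed.splits _
  have hFK_eq := hsplit.eq_prod_roots
  have hcard : Multiset.card (F.map (algebraMap ℤ K)).roots = ψ.natDegree := by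
    rw [splits_iff_card_roots.mp hsplit, hFK_deg]
  have hroots_val : ∀ s ∈ (F.map (algebraMap ℤ K)).roots, A.valuation s < 1 := by
    intro s hs
    have hs0 : eval₂ (algebraMap ℤ K) s F = 0 := by
      have := (mem_roots'.mp hs).2
      rwa [IsRoot.def, eval_map] at this
    have hsne : s ≠ 0 := by
      rintro rfl
      rw [eval₂_at_zero, hF0] at hs0
      have : ((p : ℤ) : K) = 0 := hs0
      have hp0 : (p : ℤ) = 0 := by exact_mod_cast this
      exact hp.ne_zero (by exact_mod_cast hp0)
    have hxne : s⁻¹ ≠ 0 := inv_ne_zero hsne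
    let _ : Invertible (s⁻¹) := invertibleOfNonzero hxne
    have hinv : ⅟(s⁻¹) = s := by rw [invOf_eq_inv, inv_inv]
    have h1 : eval₂ (algebraMap ℤ K) (s⁻¹) g = 0 := by
      rw [← eval₂_reverse_eq_zero_iff, hinv]
      exact hs0
    have h2 : aeval (s⁻¹ + (e : K)) ψ = 0 := by
      have : aeval (s⁻¹) g = 0 := h1
      rw [hg, aeval_comp] at this
      simpa using this
    have h3 : s⁻¹ + (e : K) ∉ A := hroots _ h2
    have h4 : s⁻¹ ∉ A := fun h => h3 (add_mem h (intCast_mem A e))
    have h5 : ¬ A.valuation (s⁻¹) ≤ 1 := fun h => h4 ((A.valuation_le_one_iff _).mp h)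
    have h6 : 1 < A.valuation (s⁻¹) := not_le.mp h5
    have := (A.valuation.one_lt_val_iff hxne).mp h6
    rwa [inv_inv] at this
  obtain ⟨-, hcoef⟩ := wp6_coeff_prod A _ hroots_val
  have hdvd : ∀ k, k < ψ.natDegree → (p : ℤ) ∣ F.coeff k := by
    intro k hk
    apply wp6_dvd_of_valuation_lt_one A p hp hpA
    have hk' : k < Multiset.card (F.map (algebraMap ℤ K)).roots := by rw [hcard]; exact hk
    have hc := hcoef k hk'
    have hcoeffK : ((F.coeff k : ℤ) : K) = ((ψ.eval e : ℤ) : K) *
        ((F.map (algebraMap ℤ K)).roots.map (fun a => X - C a)).prod.coeff k := by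
      have h := congrArg (fun q : K[X] => q.coeff k) hFK_eq
      simp only [coeff_map, coeff_C_mul, hFK_lead] at h
      exact h
    rw [hcoeffK, map_mul]
    calc A.valuation ((ψ.eval e : ℤ) : K) * _ ≤ 1 * _ :=
          mul_le_mul_left ((A.valuation_le_one_iff _).mpr (intCast_mem A _)) _
      _ = _ := one_mul _
      _ < 1 := hc
  -- Eisenstein
  have hPprime : (Ideal.span {(p : ℤ)}).IsPrime :=
    (Ideal.span_singleton_prime (by exact_mod_cast hp.ne_zero)).mpr
      (Nat.prime_iff_prime_int.mp hp)
  have hprim : F.IsPrimitive := by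
    rw [isPrimitive_iff_isUnit_of_C_dvd]
    intro r hr
    have hr0 : r ∣ (p : ℤ) := by
      have := (C_dvd_iff_dvd_coeff r F).mp hr 0
      rwa [hF0] at this
    have hrl : r ∣ ψ.eval e := by
      have := (C_dvd_iff_dvd_coeff r F).mp hr F.natDegree
      rwa [coeff_natDegree, hF_lead] at this
    obtain ⟨t, ht⟩ := hr0
    rcases (Nat.prime_iff_prime_int.mp hp).irreducible.isUnit_or_isUnit ht with h | h
    · exact h
    · exfalso
      apply he
      obtain ⟨u, rfl⟩ := h
      have : (p : ℤ) ∣ r := ⟨((u⁻¹ : ℤˣ) : ℤ), by rw [ht, mul_assoc]; simp⟩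
      exact this.trans hrl
  refine ⟨?_, hprim, hF_deg⟩
  refine irreducible_of_eisenstein_criterion hPprime ?_ ?_ ?_ ?_ hprim
  · rw [hF_lead, Ideal.mem_span_singleton]
    exact he
  · intro n hn
    rw [Ideal.mem_span_singleton]
    apply hdvd
    rw [degree_eq_natDegree hF_ne, hF_deg] at hn
    exact_mod_cast hn
  · rw [degree_eq_natDegree hF_ne, hF_deg]
    exact_mod_cast hd
  · rw [hF0, Ideal.span_singleton_pow, Ideal.mem_span_singleton]
    intro h
    have hp2 : (p : ℤ) ^ 2 ∣ (p : ℤ) ^ 1 := by simpa using h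
    have := (pow_dvd_pow_iff (by exact_mod_cast hp.ne_zero)
      (fun hu => (Nat.prime_iff_prime_int.mp hp).not_isUnit hu)).mp hp2
    omega


/-- **WP6 (A)**: a polynomial `ψ ∈ ℤ[X]` with leading coefficient `p`, none of whose roots is
integral at a place `A` over `p`, and with `p ∤ ψ(e)` for some integer `e`, is irreducible over
`ℚ`. -/
theorem wp6_irreducible (p : ℕ) (hp : p.Prime) (ψ : ℤ[X]) (hd : 0 < ψ.natDegree)
    (hlead : ψ.leadingCoeff = p) (A : ValuationSubring K)
    (hA : A.LiesOverPrime p)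
    (hroots : ∀ r : K, aeval r ψ = 0 → r ∉ A)
    (e : ℤ) (he : ¬ (p : ℤ) ∣ ψ.eval e) :
    Irreducible (ψ.map (Int.castRingHom ℚ)) := by
  have : Algebra.IsAlgebraic ℚ K := AlgebraicClosure.isAlgebraic ℚ
  obtain ⟨hFirr, hFprim, hFdeg⟩ := wp6_reverse_irreducible p hp ψ hd hlead A hA hroots e he
  set g : ℤ[X] := ψ.comp (X + C e) with hg
  set F : ℤ[X] := g.reverse with hF
  have hFQ : Irreducible (F.map (Int.castRingHom ℚ)) :=
    (IsPrimitive.Int.irreducible_iff_irreducible_map_cast hFprim).mp hFirr
  have hinjQ : Function.Injective (Int.castRingHom ℚ) := (Int.castRingHom ℚ).injective_int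
  have hψne : ψ ≠ 0 := by
    intro h
    rw [h] at hd
    simp at hd
  -- a root `r` of `ψ`
  have hdeg0 : ψ.degree ≠ 0 := by
    rw [degree_eq_natDegree hψne]
    exact_mod_cast hd.ne'
  obtain ⟨r, hr⟩ := IsAlgClosed.exists_aeval_eq_zero K ψ hdeg0
  have hrA : r ∉ A := hroots r hr
  have hρA : r - (e : K) ∉ A := fun h => hrA (by simpa using add_mem h (intCast_mem A e))
  have hρne : r - (e : K) ≠ 0 := fun h => hρA (h ▸ zero_mem A)
  have hρg : aeval (r - (e : K)) g = 0 := by
    rw [hg, aeval_comp]
    simpa using hr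
  set s : K := (r - (e : K))⁻¹ with hs
  have hsF : aeval s F = 0 := by
    let _ : Invertible (r - (e : K)) := invertibleOfNonzero hρne
    have hinv : ⅟(r - (e : K)) = s := by rw [invOf_eq_inv]
    have : eval₂ (algebraMap ℤ K) (⅟(r - (e : K))) g.reverse = 0 :=
      (eval₂_reverse_eq_zero_iff (algebraMap ℤ K) (r - (e : K)) g).mpr hρg
    rw [hinv] at this
    exact this
  have hsFQ : aeval s (F.map (Int.castRingHom ℚ)) = 0 := by
    have : aeval s (F.map (algebraMap ℤ ℚ)) = 0 := by rw [aeval_map_algebraMap]; exact hsF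
    exact this
  have hrψQ : aeval r (ψ.map (Int.castRingHom ℚ)) = 0 := by
    have : aeval r (ψ.map (algebraMap ℤ ℚ)) = 0 := by rw [aeval_map_algebraMap]; exact hr
    exact this
  -- degree of `s` over `ℚ`
  have hmin_s : (minpoly ℚ s).natDegree = ψ.natDegree := by
    rw [← minpoly.eq_of_irreducible hFQ hsFQ]
    have hlc : (F.map (Int.castRingHom ℚ)).leadingCoeff⁻¹ ≠ 0 :=
      inv_ne_zero (leadingCoeff_ne_zero.mpr hFQ.ne_zero)
    rw [natDegree_mul_C hlc, natDegree_map_eq_of_injective hinjQ, hFdeg]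
  -- `ℚ(r) = ℚ(s)`
  have hadj : IntermediateField.adjoin ℚ {r} = IntermediateField.adjoin ℚ {s} := by
    apply le_antisymm
    · rw [IntermediateField.adjoin_simple_le_iff]
      have hs_mem : s ∈ IntermediateField.adjoin ℚ {s} :=
        IntermediateField.mem_adjoin_simple_self ℚ s
      have : r = s⁻¹ + (e : K) := by rw [hs, inv_inv]; ring
      rw [this]
      exact add_mem (inv_mem hs_mem) (intCast_mem _ e)
    · rw [IntermediateField.adjoin_simple_le_iff]
      have hr_mem : r ∈ IntermediateField.adjoin ℚ {r} :=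
        IntermediateField.mem_adjoin_simple_self ℚ r
      rw [hs]
      exact inv_mem (sub_mem hr_mem (intCast_mem _ e))
  have hint_r : IsIntegral ℚ r := Algebra.IsIntegral.isIntegral r
  have hint_s : IsIntegral ℚ s := Algebra.IsIntegral.isIntegral s
  have hmin_r : (minpoly ℚ r).natDegree = ψ.natDegree := by
    rw [← IntermediateField.adjoin.finrank hint_r, hadj, IntermediateField.adjoin.finrank hint_s,
      hmin_s]
  -- conclude
  obtain ⟨c, hc⟩ := minpoly.dvd ℚ r hrψQ
  have hψQne : ψ.map (Int.castRingHom ℚ) ≠ 0 := (Polynomial.map_ne_zero_iff hinjQ).mpr hψne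
  have hcne : c ≠ 0 := by
    rintro rfl
    rw [mul_zero] at hc
    exact hψQne hc
  have hcdeg : c.natDegree = 0 := by
    have h1 : (ψ.map (Int.castRingHom ℚ)).natDegree = ψ.natDegree :=
      natDegree_map_eq_of_injective hinjQ _
    rw [hc, natDegree_mul (minpoly.ne_zero hint_r) hcne, hmin_r] at h1
    omega
  have hcunit : IsUnit c := by
    rw [natDegree_eq_zero] at hcdeg
    obtain ⟨a, rfl⟩ := hcdeg
    have ha : a ≠ 0 := fun h => hcne (by rw [h, map_zero])
    exact (isUnit_C).mpr (isUnit_iff_ne_zero.mpr ha)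
  rw [hc]
  exact (irreducible_mul_isUnit hcunit).mpr (minpoly.irreducible hint_r)

/-- **WP6 (B)**: conjugate count.  If `ψ` is irreducible over `ℚ`, then every Galois-stable set
containing a root of `ψ` has at least `ψ.natDegree` elements. -/
theorem wp6_natDegree_le_ncard (ψ : ℤ[X]) (hirr : Irreducible (ψ.map (Int.castRingHom ℚ)))
    (S : Set K) (hfin : S.Finite) (r : K) (hrS : r ∈ S) (hr : aeval r ψ = 0)
    (hstable : ∀ σ : K ≃ₐ[ℚ] K, ∀ x ∈ S, σ x ∈ S) :
    ψ.natDegree ≤ S.ncard := by
  have : Algebra.IsAlgebraic ℚ K := AlgebraicClosure.isAlgebraic ℚ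
  have hinjQ : Function.Injective (Int.castRingHom ℚ) := (Int.castRingHom ℚ).injective_int
  have hrψQ : aeval r (ψ.map (Int.castRingHom ℚ)) = 0 := by
    have : aeval r (ψ.map (algebraMap ℤ ℚ)) = 0 := by rw [aeval_map_algebraMap]; exact hr
    exact this
  have hint_r : IsIntegral ℚ r := Algebra.IsIntegral.isIntegral r
  have hmin : (minpoly ℚ r).natDegree = ψ.natDegree := by
    rw [← minpoly.eq_of_irreducible hirr hrψQ]
    have hlc : (ψ.map (Int.castRingHom ℚ)).leadingCoeff⁻¹ ≠ 0 :=
      inv_ne_zero (leadingCoeff_ne_zero.mpr hirr.ne_zero)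
    rw [natDegree_mul_C hlc, natDegree_map_eq_of_injective hinjQ]
  have hsub : (minpoly ℚ r).rootSet K ⊆ S := by
    rw [← Algebra.IsAlgebraic.range_eval_eq_rootSet_minpoly K r]
    rintro _ ⟨f, rfl⟩
    have hbij : Function.Bijective f := Algebra.IsAlgebraic.algHom_bijective f
    exact hstable (AlgEquiv.ofBijective f hbij) r hrS
  have hsep : (minpoly ℚ r).Separable := (minpoly.irreducible hint_r).separable
  have hcard : Fintype.card ((minpoly ℚ r).rootSet K) = (minpoly ℚ r).natDegree :=
    card_rootSet_eq_natDegree hsep (IsAlgClosed.splits _)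
  have hncard : ((minpoly ℚ r).rootSet K).ncard = (minpoly ℚ r).natDegree := by
    rw [← hcard, ← Nat.card_eq_fintype_card]
    rfl
  calc ψ.natDegree = (minpoly ℚ r).natDegree := hmin.symm
    _ = ((minpoly ℚ r).rootSet K).ncard := hncard.symm
    _ ≤ S.ncard := Set.ncard_le_ncard hsub hfin

/-- **WP6**, combined form used in step (2c) of the S13 plan: under the hypotheses of
`wp6_irreducible`, a finite Galois-stable set containing a root of `ψ` has at least
`ψ.natDegree` elements. -/
theorem wp6_natDegree_le_ncard_of_roots_not_mem (p : ℕ) (hp : p.Prime) (ψ : ℤ[X])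
    (hd : 0 < ψ.natDegree) (hlead : ψ.leadingCoeff = p) (A : ValuationSubring K)
    (hA : A.LiesOverPrime p)
    (hroots : ∀ r : K, aeval r ψ = 0 → r ∉ A)
    (e : ℤ) (he : ¬ (p : ℤ) ∣ ψ.eval e)
    (S : Set K) (hfin : S.Finite) (r : K) (hrS : r ∈ S) (hr : aeval r ψ = 0)
    (hstable : ∀ σ : K ≃ₐ[ℚ] K, ∀ x ∈ S, σ x ∈ S) :
    ψ.natDegree ≤ S.ncard :=
  wp6_natDegree_le_ncard ψ (wp6_irreducible p hp ψ hd hlead A hA hroots e he) S hfin r hrS hr
    hstable

end Main

end Fermat.Agent.H60

end
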