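/-
P-ES / ES-B row 351 (helper60): ESB-13b, base change of divisors commutes with pull-back and
push-forward along a morphism of function fields (from ESB-13a as a hypothesis).
-/
import Fermat.Agent.H29.ESB.Interfaces2
import Fermat.Agent.H29.ResidueConst
import Fermat.Agent.H23.PlaceBasic

set_option autoImplicit false
set_option linter.style.haveILetI false

noncomputable section

open AlgebraicCurve IntermediateField

namespace Fermat.Agent.H60

open Fermat.Agent.H29

/-- An unramified extension map of places is injective (local copy of the standard fact). -/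
theorem esb13_ext_injective {k K Fk FK : Type} [Field k] [Field K] [Field Fk] [Field FK]
    [Algebra k Fk] [Algebra K FK] (E : ConstExt k K Fk FK)
    (ext : Place k Fk → Place K FK) (hext : IsPlaceExt E ext) : Function.Injective ext := by
  intro v v' hvv'
  apply Fermat.Agent.H23.place_ext_of_ord
  intro f hf
  rw [← hext v' f, ← hvv', hext v f]
  exact hf

/-- Over algebraically closed constants, all inertia degrees along a morphism are `1`. -/
theorem esb13_inertiaDegAlong_eq_one {K F F' : Type} [Field K] [Field F] [Field F']
    [Algebra K F] [Algebra K F'] [IsAlgClosed K]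
    (x : F) (hx : FiniteDimensional K⟮x⟯ F) (x' : F') (hx' : FiniteDimensional K⟮x'⟯ F')
    (φ : F →ₐ[K] F') (hφ : φ.toRingHom.IsIntegral) (w : Place K F') :
    w.inertiaDegAlong φ hφ = 1 := by
  have : Algebra.IsAlgebraic K⟮x⟯ F := Algebra.IsAlgebraic.of_finite _ _
  have : Algebra.IsAlgebraic K⟮x'⟯ F' := Algebra.IsAlgebraic.of_finite _ _
  have h1 : (w.restrictAlong φ hφ).deg = 1 :=
    Fermat.Agent.H29.place_deg_eq_one (y := x) _
  have h2 : w.deg = 1 := Fermat.Agent.H29.place_deg_eq_one (y := x') w
  have h3 : (w.restrictAlong φ hφ).deg * w.inertiaDegAlong φ hφ = w.deg := by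
    letI := algebraAlong φ
    haveI := isScalarTower_along φ
    haveI := isIntegral_along φ hφ
    exact Place.deg_restrict_mul_inertiaDeg (F := F) w
  rw [h1, h2, one_mul] at h3
  exact h3

/-- **ESB-13b** Base change of divisors commutes with pull-back and push-forward. -/
theorem pullPushBCStatement (h13a : RestrictBCStatement) : PullPushBCStatement := by
  classical
  intro k K Fk FK Fk' FK' _ _ _ _ _ _ _ _ _ _ _ _ _ _ _ _ E E' φk φK hφk hφK hsq ext ext'
    hext hext'
  obtain ⟨h1, h2, h3⟩ := h13a k K Fk FK Fk' FK' E E' φk φK hφk hφK hsq ext ext' hext hext'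
  have hinj : Function.Injective ext := esb13_ext_injective E ext hext
  have hinj' : Function.Injective ext' := esb13_ext_injective E' ext' hext'
  refine ⟨?_, ?_⟩
  · intro D
    refine Finsupp.ext fun w' => ?_
    rw [Divisor.pullbackAlong_apply]
    by_cases hw : w' ∈ Set.range ext'
    · obtain ⟨v', rfl⟩ := hw
      simp only [divisorBC, Finsupp.mapDomain.addMonoidHom_apply]
      rw [Finsupp.mapDomain_apply hinj', h1, Finsupp.mapDomain_apply hinj, h2,
        Divisor.pullbackAlong_apply]
    · have hw2 : w'.restrictAlong φK hφK ∉ Set.range ext := fun h => hw (h3 w' h)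
      simp only [divisorBC, Finsupp.mapDomain.addMonoidHom_apply]
      rw [Finsupp.mapDomain_of_notMem_range _ _ hw, Finsupp.mapDomain_of_notMem_range _ _ hw2,
        mul_zero]
  · have hhom : (divisorBC ext).comp (Divisor.pushforwardAlong φk hφk)
        = (Divisor.pushforwardAlong φK hφK).comp (divisorBC ext') := by
      apply Finsupp.addHom_ext
      intro v' n
      have hi1 : v'.inertiaDegAlong φk hφk = 1 :=
        esb13_inertiaDegAlong_eq_one E.x E.x_fin E'.x E'.x_fin φk hφk v'
      have hi2 : (ext' v').inertiaDegAlong φK hφK = 1 :=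
        esb13_inertiaDegAlong_eq_one (E.bc E.x) E.bcx_fin (E'.bc E'.x) E'.bcx_fin φK hφK _
      simp only [AddMonoidHom.comp_apply, divisorBC, Finsupp.mapDomain.addMonoidHom_apply,
        Finsupp.mapDomain_single, Divisor.pushforwardAlong_single, hi1, hi2, h1]
    intro D'
    exact DFunLike.congr_fun hhom D'

end Fermat.Agent.H60

end
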