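/-
P-DS / P-ES1 row 539 ES1-GEN-b1 (helper60): the weight-4 lattice sums with congruence
conditions are holomorphic, bounded at `i∞`, and permuted by `SL(2, ℤ)`.
They are weighted Eisenstein sums in the sense of `Fermat.Agent.H96.EisChar`.
-/
import Fermat.Agent.H29.ES1.GenInterfaces
import Fermat.Agent.H96.EisChar

set_option autoImplicit false

noncomputable section

open UpperHalfPlane ModularForm EisensteinSeries Filter Topology
open scoped MatrixGroups Manifold Matrix

namespace Fermat.Agent.H60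

open Fermat.Agent.H29.ES1 Fermat.Agent.H96

/-- The indicator weight of `latSet M a`. -/
def latW (M : ℕ) (a : Fin 2 → ZMod M) : (Fin 2 → ℤ) → ℂ :=
  (latSet M a).indicator (fun _ => (1 : ℂ))

theorem norm_latW_le (M : ℕ) (a : Fin 2 → ZMod M) (v : Fin 2 → ℤ) : ‖latW M a v‖ ≤ 1 := by
  classical
  unfold latW
  rw [Set.indicator_apply]
  split_ifs
  · simp
  · simp

/-- The lattice sums are weighted Eisenstein sums. -/
theorem latSum_eq_eisW (M : ℕ) (a : Fin 2 → ZMod M) : latSum M a = eisW (latW M a) 4 := by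
  classical
  funext z
  unfold latSum eisW
  have h1 : ∀ v : latSet M a,
      (((v.1 0 : ℤ) : ℂ) * (z : ℂ) + ((v.1 1 : ℤ) : ℂ))⁻¹ ^ 4 = eisSummand 4 v.1 z := by
    intro v
    rw [eisSummand, zpow_neg, inv_pow]
    norm_cast
  rw [tsum_congr h1, tsum_subtype (latSet M a) (fun v => eisSummand 4 v z)]
  refine tsum_congr fun v => ?_
  unfold latW
  rw [Set.indicator_apply, Set.indicator_apply]
  split_ifs
  · rw [one_mul]
  · rw [zero_mul]

/-- Reduction modulo `M` commutes with `vecMul`. -/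
theorem latSum_cast_vecMul (M : ℕ) (v : Fin 2 → ℤ) (A : Matrix (Fin 2) (Fin 2) ℤ) :
    (fun i => (((v ᵥ* A) i : ℤ) : ZMod M)) =
      (fun i => ((v i : ℤ) : ZMod M)) ᵥ* (A.map (Int.castRingHom (ZMod M))) := by
  funext i
  simp [Matrix.vecMul, dotProduct, Fin.sum_univ_two]

/-- The transported weight is the weight of the transformed class. -/
theorem latW_vecMul_inv (M : ℕ) (a : Fin 2 → ZMod M) (γ : SL(2, ℤ)) (v : Fin 2 → ℤ) :
    latW M a (v ᵥ* ((γ⁻¹ : SL(2, ℤ)) : Matrix (Fin 2) (Fin 2) ℤ)) = latW M (vecAct M a γ) v := by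
  classical
  have hmem : (v ᵥ* ((γ⁻¹ : SL(2, ℤ)) : Matrix (Fin 2) (Fin 2) ℤ)) ∈ latSet M a ↔
      v ∈ latSet M (vecAct M a γ) := by
    have hback : (v ᵥ* ((γ⁻¹ : SL(2, ℤ)) : Matrix (Fin 2) (Fin 2) ℤ)) ᵥ*
        (γ : Matrix (Fin 2) (Fin 2) ℤ) = v := by
      simp only [Matrix.vecMul_vecMul, ← Matrix.SpecialLinearGroup.coe_mul, inv_mul_cancel,
        Matrix.SpecialLinearGroup.coe_one, Matrix.vecMul_one]
    constructor
    · rintro ⟨h1, h2⟩
      refine ⟨?_, ?_⟩
      · have h3 := latSum_cast_vecMul M (v ᵥ* ((γ⁻¹ : SL(2, ℤ)) : Matrix (Fin 2) (Fin 2) ℤ))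
          (γ : Matrix (Fin 2) (Fin 2) ℤ)
        rw [hback, h1] at h3
        exact h3
      · rintro rfl
        apply h2
        simp
    · rintro ⟨h1, h2⟩
      refine ⟨?_, ?_⟩
      · have h3 := latSum_cast_vecMul M v ((γ⁻¹ : SL(2, ℤ)) : Matrix (Fin 2) (Fin 2) ℤ)
        rw [h3, h1]
        unfold vecAct
        rw [Matrix.vecMul_vecMul, ← Matrix.map_mul, ← Matrix.SpecialLinearGroup.coe_mul,
          mul_inv_cancel, Matrix.SpecialLinearGroup.coe_one]
        simp
      · intro h0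
        apply h2
        rw [← hback, h0]
        simp
  unfold latW
  rw [Set.indicator_apply, Set.indicator_apply]
  by_cases h : v ∈ latSet M (vecAct M a γ)
  · rw [if_pos h, if_pos (hmem.mpr h)]
  · rw [if_neg h, if_neg (fun h' => h (hmem.mp h'))]

/-- **ES1-GEN-b (1)**. -/
theorem latSumStatement : LatSumStatement := by
  intro M _ a
  refine ⟨?_, ?_, ?_⟩
  · rw [latSum_eq_eisW]
    exact eisW_mdifferentiable (norm_latW_le M a) (by norm_num)
  · have h := isBoundedAtImInfty_eisW (norm_latW_le M a) (k := 4) (by norm_num)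
    rw [UpperHalfPlane.isBoundedAtImInfty_iff] at h
    obtain ⟨C, Y, hCY⟩ := h
    refine ⟨C, Y, fun z hz => ?_⟩
    rw [latSum_eq_eisW]
    exact hCY z hz
  · intro γ z
    rw [latSum_eq_eisW, latSum_eq_eisW]
    have h := congrFun (eisW_slash (latW M a) 4 γ) z
    rw [SL_slash_apply] at h
    have hw : (fun v => latW M a (v ᵥ* ((γ⁻¹ : SL(2, ℤ)) : Matrix (Fin 2) (Fin 2) ℤ))) =
        latW M (vecAct M a γ) := funext fun v => latW_vecMul_inv M a γ v
    rw [hw] at h
    have hd : denom γ z ≠ 0 := denom_ne_zero _ z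
    have hden : denom γ z = (((γ : Matrix (Fin 2) (Fin 2) ℤ) 1 0 : ℤ) : ℂ) * (z : ℂ)
        + (((γ : Matrix (Fin 2) (Fin 2) ℤ) 1 1 : ℤ) : ℂ) := by
      simp [denom]
    rw [← hden, ← h, mul_comm, mul_assoc, ← zpow_natCast, ← zpow_add₀ hd]
    simp

end Fermat.Agent.H60

end
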