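/-
P-CHEB phase 2, row 451 CH2-BRIDGE (helper60): Chebotarev's density theorem in the prelude
language from the number-field form.
-/
import Fermat.Agent.H62.Cheb2.Interfaces
import Fermat.Agent.H73.ChebBridge
import Fermat.Agent.H53.FrobeniusExists

set_option autoImplicit false

open NumberField Ideal IsDedekindDomain
open scoped Pointwise

namespace Fermat.Agent.H60

open Fermat.Agent.H62.Cheb Fermat.Agent.H62.Cheb2

/-- Elements of `ℚ̄` integral over `ℤ` lie in every valuation subring. -/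
theorem ch2_mem_of_isIntegral (A : ValuationSubring (AlgebraicClosure ℚ))
    {x : AlgebraicClosure ℚ} (hx : IsIntegral ℤ x) : x ∈ A := by
  have h1 : IsIntegral A x := hx.tower_top
  obtain ⟨y, hy⟩ := IsIntegrallyClosed.isIntegral_iff.mp h1
  rw [← hy]
  exact y.2

/-- Integers of a number field inside `ℚ̄` lie in every valuation subring. -/
theorem ch2_integer_mem (K : IntermediateField ℚ (AlgebraicClosure ℚ))
    (A : ValuationSubring (AlgebraicClosure ℚ)) (y : 𝓞 K) :
    ((y : K) : AlgebraicClosure ℚ) ∈ A :=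
  ch2_mem_of_isIntegral A
    (map_isIntegral_int K.val (NumberField.RingOfIntegers.isIntegral_coe y))

/-- The key inclusion: a prime with a Frobenius in `C` in the number-field sense has one in the
sense of the prelude. -/
theorem ch2_mem_frobPrimesBar (K : IntermediateField ℚ (AlgebraicClosure ℚ))
    [FiniteDimensional ℚ K] [IsGalois ℚ K] (C : Set (K ≃ₐ[ℚ] K)) (T : Finset ℕ)
    (p : Nat.Primes) (hp : p ∈ frobPrimes K C) (hT : (p : ℕ) ∉ T) :
    p ∈ frobPrimesBar K C T := by
  obtain ⟨hdisc, g, hgC, v, hvP, hpv, hfrob⟩ := hp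
  have hpp : (p : ℕ).Prime := p.2
  have hv0 : v ≠ ⊥ := by
    intro h
    rw [h, Ideal.mem_bot] at hpv
    exact hpp.ne_zero (by exact_mod_cast hpv)
  obtain ⟨A, hA, hcenter, hin, -⟩ :=
    Fermat.Agent.H73.bridge K p hpp hdisc ⟨v, hvP, hv0⟩ hpv
  have hcenter' : ∀ x : 𝓞 K, x ∈ v ↔ ((x : K) : AlgebraicClosure ℚ) ∈ A.nonunits := hcenter
  obtain ⟨τ, hτ⟩ := Fermat.Agent.H53.exists_isFrobeniusAt_algebraicClosure hpp A hA
  refine ⟨hT, A, hA, hin, τ, hτ, ?_⟩
  have hun : Algebra.IsUnramifiedAt ℤ v :=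
    (NumberField.not_dvd_discr_iff_forall_mem K (𝓞 K) (Nat.prime_iff_prime_int.mp hpp)).mp hdisc
      v hvP (by simpa using hpv)
  -- the Frobenius congruence for the restriction of `τ`
  have hres : ∀ y : 𝓞 K,
      ((((AlgEquiv.restrictNormalHom K τ) • y : 𝓞 K) : K) : AlgebraicClosure ℚ) =
        τ ((y : K) : AlgebraicClosure ℚ) := fun y =>
    AlgEquiv.restrictNormal_commutes τ K (y : K)
  have hg' : ∀ y : 𝓞 K, (AlgEquiv.restrictNormalHom K τ) • y - y ^ (p : ℕ) ∈ v := by
    intro y
    rw [hcenter']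
    have h1 := Fermat.Agent.H73.frob_sub_pow_mem_nonunits A hτ (ch2_integer_mem K A y)
    have h2 : ((((AlgEquiv.restrictNormalHom K τ • y - y ^ (p : ℕ) : 𝓞 K)) : K) :
        AlgebraicClosure ℚ) =
          τ ((y : K) : AlgebraicClosure ℚ) - ((y : K) : AlgebraicClosure ℚ) ^ (p : ℕ) := by
      rw [← hres y]
      simp
    rw [h2]
    exact h1
  -- the Frobenius congruence for `g`
  have hg : ∀ y : 𝓞 K, g • y - y ^ (p : ℕ) ∈ v := fun y => hfrob y
  have hgstab : g ∈ MulAction.stabilizer (K ≃ₐ[ℚ] K) v :=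
    Fermat.Agent.H73.ChebCore.mem_stabilizer_of_frob hpp v g hg
  have hginv : g⁻¹ • v = v := by
    have h1 : g • v = v := MulAction.mem_stabilizer_iff.mp hgstab
    conv_lhs => rw [← h1]
    rw [inv_smul_smul]
  have hone : g⁻¹ * AlgEquiv.restrictNormalHom K τ = 1 := by
    refine Fermat.Agent.H73.ChebCore.eq_one_of_forall_sub_mem hpp v hpv hun _ (fun y => ?_)
    have h1 : (AlgEquiv.restrictNormalHom K τ) • y - g • y ∈ v := by
      have := v.sub_mem (hg' y) (hg y)
      simpa using this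
    have h2 : g⁻¹ • ((AlgEquiv.restrictNormalHom K τ) • y - g • y) ∈ g⁻¹ • v :=
      Ideal.smul_mem_pointwise_smul _ _ _ h1
    rw [hginv, smul_sub, inv_smul_smul, ← mul_smul] at h2
    exact h2
  have heq : AlgEquiv.restrictNormalHom K τ = g := by
    have := congrArg (fun h => g * h) hone
    simpa using this
  rw [heq]
  exact hgC

/-- **CH2-BRIDGE**: Chebotarev's density theorem in the prelude language. -/
theorem chebotarevDensity (h : ChebotarevDensityNFStatement) : ChebotarevDensityStatement := by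
  classical
  intro K _ _ C T ε hε
  obtain ⟨δ, hδ, hbound⟩ := h K C T ε hε
  refine ⟨δ, hδ, fun s hs1 hs2 => (hbound s hs1 hs2).trans ?_⟩
  have hsum : Summable fun p : Nat.Primes => ((p : ℕ) : ℝ) ^ (-s) :=
    Nat.Primes.summable_rpow.mpr (by linarith)
  have hnn : ∀ p : Nat.Primes, (0 : ℝ) ≤ ((p : ℕ) : ℝ) ^ (-s) := fun p =>
    Real.rpow_nonneg (Nat.cast_nonneg _) _
  unfold frobSum
  refine Summable.tsum_le_tsum (fun p => ?_) ?_ ?_
  · by_cases hp : p ∈ frobPrimes K C ∧ (p : ℕ) ∉ T
    · rw [if_pos hp, if_pos (ch2_mem_frobPrimesBar K C T p hp.1 hp.2)]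
    · rw [if_neg hp]
      split_ifs
      · exact hnn p
      · exact le_rfl
  · refine Summable.of_nonneg_of_le (fun p => ?_) (fun p => ?_) hsum
    · split_ifs
      · exact hnn p
      · exact le_rfl
    · split_ifs
      · exact le_rfl
      · exact hnn p
  · refine Summable.of_nonneg_of_le (fun p => ?_) (fun p => ?_) hsum
    · split_ifs
      · exact hnn p
      · exact le_rfl
    · split_ifs
      · exact le_rfl
      · exact hnn p

end Fermat.Agent.H60
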