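/-
P-ES / ES-A/GRP (helper60): group theory of `SL(2,ℤ)` acting on the upper half plane.
Mathlib only.

* `esa_fix_trace`      : a fixed point in `ℍ` forces `|tr γ| ≤ 2`;
* `esa_elliptic_fix`   : `|tr γ| < 2` gives a fixed point in `ℍ`;
* `esa_parabolic_form` : `|tr γ| = 2` gives `γ = ± δ T^k δ⁻¹`.
-/
import Mathlib

set_option autoImplicit false

namespace Fermat.Agent.H60

open UpperHalfPlane
open scoped MatrixGroups

/-- The determinant relation of an element of `SL(2,ℤ)` in coordinates. -/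
theorem esa_det_eq (γ : SL(2, ℤ)) : γ 0 0 * γ 1 1 - γ 0 1 * γ 1 0 = 1 := by
  have h := γ.det_coe
  rw [Matrix.det_fin_two] at h
  exact h

/-- The fixed point equation in real coordinates. -/
theorem esa_fixed_iff (γ : SL(2, ℤ)) (z : ℍ) :
    γ • z = z ↔
      ((γ 0 0 : ℝ) * z.re + (γ 0 1 : ℝ) =
          z.re * ((γ 1 0 : ℝ) * z.re + (γ 1 1 : ℝ)) - z.im * ((γ 1 0 : ℝ) * z.im)) ∧
      ((γ 0 0 : ℝ) * z.im =
          z.re * ((γ 1 0 : ℝ) * z.im) + z.im * ((γ 1 0 : ℝ) * z.re + (γ 1 1 : ℝ))) := by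
  have hden : ((algebraMap ℤ ℝ (γ 1 0) : ℂ) * (z : ℂ) + (algebraMap ℤ ℝ (γ 1 1) : ℂ)) ≠ 0 := by
    intro h0
    have hre := congrArg Complex.re h0
    have him := congrArg Complex.im h0
    simp at hre him
    have hy : 0 < z.im := z.im_pos
    have hc : (γ 1 0 : ℝ) = 0 := by
      rcases him with h | h
      · exact_mod_cast h
      · exact absurd h hy.ne'
    have hd : (γ 1 1 : ℝ) = 0 := by
      rw [hc] at hre; simpa using hre
    have hdet := esa_det_eq γ
    have hdetR : (γ 0 0 : ℝ) * (γ 1 1 : ℝ) - (γ 0 1 : ℝ) * (γ 1 0 : ℝ) = 1 := by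
      exact_mod_cast hdet
    rw [hc, hd] at hdetR
    norm_num at hdetR
  rw [UpperHalfPlane.ext_iff, UpperHalfPlane.coe_specialLinearGroup_apply, div_eq_iff hden,
    Complex.ext_iff]
  simp

/-- **[FIX-TR]** an element of `SL(2,ℤ)` with a fixed point in `ℍ` has trace of absolute value
at most `2`. -/
theorem esa_fix_trace (γ : SL(2, ℤ)) (z₀ : ℍ) (h : γ • z₀ = z₀) :
    |(γ 0 0 + γ 1 1 : ℤ)| ≤ 2 := by
  obtain ⟨hre, him⟩ := (esa_fixed_iff γ z₀).mp h
  have hy : 0 < z₀.im := z₀.im_pos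
  have hdet := esa_det_eq γ
  have hdetR : (γ 0 0 : ℝ) * (γ 1 1 : ℝ) - (γ 0 1 : ℝ) * (γ 1 0 : ℝ) = 1 := by
    exact_mod_cast hdet
  set a : ℝ := (γ 0 0 : ℝ) with ha
  set b : ℝ := (γ 0 1 : ℝ) with hb
  set c : ℝ := (γ 1 0 : ℝ) with hc
  set d : ℝ := (γ 1 1 : ℝ) with hd
  set x : ℝ := z₀.re with hx
  set y : ℝ := z₀.im with hy'
  -- `a = 2 c x + d`
  have h1 : a = 2 * c * x + d := by
    have : y * (a - (2 * c * x + d)) = 0 := by linear_combination him
    rcases mul_eq_zero.mp this with h0 | h0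
    · exact absurd h0 hy.ne'
    · linarith
  -- `b = - c (x² + y²)`
  have h2 : b = -c * (x ^ 2 + y ^ 2) := by
    rw [h1] at hre
    linear_combination hre
  -- `(c x + d)² + c² y² = 1`
  have h3 : (c * x + d) ^ 2 + c ^ 2 * y ^ 2 = 1 := by
    rw [h1, h2] at hdetR
    linear_combination hdetR
  have h4 : (a + d) ^ 2 ≤ 4 := by
    have : a + d = 2 * (c * x + d) := by rw [h1]; ring
    rw [this]
    nlinarith [sq_nonneg (c * y)]
  have h5 : ((γ 0 0 + γ 1 1 : ℤ) : ℝ) ^ 2 ≤ 4 := by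
    push_cast
    exact h4
  have h6 : (γ 0 0 + γ 1 1 : ℤ) ^ 2 ≤ 4 := by exact_mod_cast h5
  rw [abs_le]
  constructor <;> nlinarith

/-- **[ELL-FIX]** an element of `SL(2,ℤ)` of trace `0, ±1` has a fixed point in `ℍ`. -/
theorem esa_elliptic_fix (γ : SL(2, ℤ)) (h : |(γ 0 0 + γ 1 1 : ℤ)| < 2) :
    ∃ z₀ : ℍ, γ • z₀ = z₀ := by
  have hdet := esa_det_eq γ
  rw [abs_lt] at h
  obtain ⟨hlo, hhi⟩ := h
  -- `c ≠ 0`
  have hc0 : γ 1 0 ≠ 0 := by
    intro hc
    rw [hc, mul_zero, sub_zero] at hdet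
    have h1 : γ 0 0 = 1 ∨ γ 0 0 = -1 := by
      rcases Int.isUnit_iff.mp (IsUnit.of_mul_eq_one _ hdet) with h | h
      · exact Or.inl h
      · exact Or.inr h
    rcases h1 with h1 | h1
    · rw [h1] at hdet hlo hhi
      have : γ 1 1 = 1 := by linarith
      rw [this] at hhi
      norm_num at hhi
    · rw [h1] at hdet hlo hhi
      have : γ 1 1 = -1 := by linarith
      rw [this] at hlo
      norm_num at hlo
  have hdetR : (γ 0 0 : ℝ) * (γ 1 1 : ℝ) - (γ 0 1 : ℝ) * (γ 1 0 : ℝ) = 1 := by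
    exact_mod_cast hdet
  have hcR : (γ 1 0 : ℝ) ≠ 0 := by exact_mod_cast hc0
  have htR : ((γ 0 0 : ℝ) + (γ 1 1 : ℝ)) ^ 2 < 4 := by
    have h1 : (γ 0 0 + γ 1 1 : ℤ) ^ 2 < 4 := by nlinarith
    have h2 : ((γ 0 0 + γ 1 1 : ℤ) : ℝ) ^ 2 < 4 := by exact_mod_cast h1
    push_cast at h2
    exact h2
  set a : ℝ := (γ 0 0 : ℝ) with ha
  set b : ℝ := (γ 0 1 : ℝ) with hb
  set c : ℝ := (γ 1 0 : ℝ) with hc
  set d : ℝ := (γ 1 1 : ℝ) with hd
  have hpos : 0 < 4 - (a + d) ^ 2 := by linarith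
  have habs : 0 < |c| := abs_pos.mpr hcR
  set x : ℝ := (a - d) / (2 * c) with hx
  set y : ℝ := Real.sqrt (4 - (a + d) ^ 2) / (2 * |c|) with hy
  have hy0 : 0 < y := by
    rw [hy]
    exact div_pos (Real.sqrt_pos.mpr hpos) (by positivity)
  have hy2 : y ^ 2 * (4 * c ^ 2) = 4 - (a + d) ^ 2 := by
    rw [hy, div_pow, Real.sq_sqrt hpos.le, mul_pow, sq_abs]
    field_simp
    ring
  have hx2 : x * (2 * c) = a - d := by
    rw [hx]
    field_simp
  refine ⟨⟨⟨x, y⟩, hy0⟩, ?_⟩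
  rw [esa_fixed_iff]
  have hre' : (⟨⟨x, y⟩, hy0⟩ : ℍ).re = x := rfl
  have him' : (⟨⟨x, y⟩, hy0⟩ : ℍ).im = y := rfl
  rw [hre', him']
  constructor
  · -- real part: multiply by `4 c`
    have hc4 : (4 * c) ≠ 0 := by positivity
    apply mul_left_cancel₀ hc4
    have e1 : 4 * c * (a * x + b) = 2 * a * (x * (2 * c)) + 4 * c * b := by ring
    have e2 : 4 * c * (x * (c * x + d) - y * (c * y)) =
        (x * (2 * c)) ^ 2 + 2 * d * (x * (2 * c)) - y ^ 2 * (4 * c ^ 2) := by ring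
    rw [e1, e2, hx2, hy2]
    linear_combination (-4 : ℝ) * hdetR
  · -- imaginary part
    have e1 : x * (c * y) + y * (c * x + d) = y * (x * (2 * c)) + y * d := by ring
    rw [e1, hx2]
    ring

/-- Key step for `esa_parabolic_form`: trace `2` gives `γ δ = δ T^k`. -/
theorem esa_parabolic_key (γ : SL(2, ℤ)) (h : γ 0 0 + γ 1 1 = 2) :
    ∃ (δ : SL(2, ℤ)) (k : ℤ), γ * δ = δ * ModularGroup.T ^ k := by
  have hdet := esa_det_eq γ
  by_cases hc0 : γ 1 0 = 0
  · -- upper triangular unipotent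
    rw [hc0, mul_zero, sub_zero] at hdet
    have ha : γ 0 0 = 1 := by
      have : (γ 0 0 - 1) ^ 2 = 0 := by
        have hd : γ 1 1 = 2 - γ 0 0 := by linarith
        rw [hd] at hdet
        linear_combination -hdet
      have := pow_eq_zero_iff (two_ne_zero) |>.mp this
      linarith
    have hd : γ 1 1 = 1 := by linarith
    refine ⟨1, γ 0 1, ?_⟩
    rw [mul_one, one_mul]
    ext i j
    rw [ModularGroup.coe_T_zpow]
    fin_cases i <;> fin_cases j <;> simp [ha, hd, hc0]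
  · -- general case
    set a := γ 0 0 with ha
    set b := γ 0 1 with hb
    set c := γ 1 0 with hc
    set d := γ 1 1 with hd
    set e := a - 1 with he
    set g : ℤ := (Int.gcd e c : ℤ) with hg
    have hg0 : g ≠ 0 := by
      rw [hg]
      exact_mod_cast (Int.gcd_pos_of_ne_zero_right e hc0).ne'
    obtain ⟨p, hp⟩ : g ∣ e := Int.gcd_dvd_left e c
    obtain ⟨q, hq⟩ : g ∣ c := Int.gcd_dvd_right e c
    set A := Int.gcdA e c with hA
    set B := Int.gcdB e c with hB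
    have hbez : g = e * A + c * B := Int.gcd_eq_gcd_ab e c
    have hebc : e * e + b * c = 0 := by
      rw [he]
      linear_combination -hdet + a * h
    have hdm : d - 1 = -e := by rw [he]; linarith
    have hpq : p * A + q * B = 1 := by
      apply mul_left_cancel₀ hg0
      linear_combination -hbez - A * hp - B * hq
    set k : ℤ := b * A ^ 2 - 2 * e * A * B - c * B ^ 2 with hk
    have hgk : g * g = -(c * k) := by
      rw [hk]
      linear_combination (g + e * A + c * B) * hbez + (A ^ 2) * hebc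
    let δ : SL(2, ℤ) := ⟨!![p, -B; q, A], by
      rw [Matrix.det_fin_two_of]
      linear_combination hpq⟩
    refine ⟨δ, k, ?_⟩
    -- the four entry identities
    have e1 : e * p + b * q = 0 := by
      apply mul_left_cancel₀ hg0
      linear_combination hebc - e * hp - b * hq
    have e2 : c * p - e * q = 0 := by
      apply mul_left_cancel₀ hg0
      linear_combination e * hq - c * hp
    have e4 : c * (-B) - e * A = q * k := by
      apply mul_left_cancel₀ hg0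
      linear_combination g * hbez - hgk + k * hq
    have e3 : e * (-B) + b * A = p * k := by
      apply mul_left_cancel₀ hg0
      linear_combination (b * A - e * B) * hbez + (A * B) * hebc + k * hp
    ext i j
    rw [Matrix.SpecialLinearGroup.coe_mul, Matrix.SpecialLinearGroup.coe_mul,
      ModularGroup.coe_T_zpow]
    have hγ : (γ : Matrix (Fin 2) (Fin 2) ℤ) = !![a, b; c, d] := by
      ext i j
      fin_cases i <;> fin_cases j <;> rfl
    have hδ : (δ : Matrix (Fin 2) (Fin 2) ℤ) = !![p, -B; q, A] := rfl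
    rw [hγ, hδ, Matrix.mul_fin_two, Matrix.mul_fin_two]
    fin_cases i <;> fin_cases j
    · show a * p + b * q = p * 1 + -B * 0
      linear_combination e1 - p * he
    · show a * -B + b * A = p * k + -B * 1
      linear_combination e3 + B * he
    · show c * p + d * q = q * 1 + A * 0
      linear_combination e2 + q * hdm
    · show c * -B + d * A = q * k + A * 1
      linear_combination e4 + A * hdm

/-- **[PAR-FORM]** an element of `SL(2,ℤ)` of trace `±2` is `±` a conjugate of a power of `T`. -/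
theorem esa_parabolic_form (γ : SL(2, ℤ)) (h : |(γ 0 0 + γ 1 1 : ℤ)| = 2) :
    ∃ (δ : SL(2, ℤ)) (k : ℤ),
      γ = δ * ModularGroup.T ^ k * δ⁻¹ ∨ γ = -(δ * ModularGroup.T ^ k * δ⁻¹) := by
  rcases (abs_eq (by norm_num : (0 : ℤ) ≤ 2)).mp h with h2 | h2
  · obtain ⟨δ, k, hk⟩ := esa_parabolic_key γ h2
    refine ⟨δ, k, Or.inl ?_⟩
    rw [← hk, mul_assoc, mul_inv_cancel, mul_one]
  · have h3 : (-γ) 0 0 + (-γ) 1 1 = 2 := by
      simp only [Matrix.SpecialLinearGroup.coe_neg, Matrix.neg_apply]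
      linarith
    obtain ⟨δ, k, hk⟩ := esa_parabolic_key (-γ) h3
    refine ⟨δ, k, Or.inr ?_⟩
    rw [← hk, mul_assoc, mul_inv_cancel, mul_one, neg_neg]

/-- Trace-form versions (shape of `H94.EsA`). -/
theorem esa_trace_eq (γ : SL(2, ℤ)) :
    (γ : Matrix (Fin 2) (Fin 2) ℤ).trace = γ 0 0 + γ 1 1 := by
  rw [Matrix.trace_fin_two]

theorem esa_parabolic_form' (γ : SL(2, ℤ))
    (h : (γ : Matrix (Fin 2) (Fin 2) ℤ).trace ^ 2 = 4) :
    ∃ (α : SL(2, ℤ)) (k : ℤ), γ = α * ModularGroup.T ^ k * α⁻¹ ∨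
      γ = -(α * ModularGroup.T ^ k * α⁻¹) := by
  apply esa_parabolic_form
  rw [esa_trace_eq] at h
  have h4 : |(γ 0 0 + γ 1 1 : ℤ)| ^ 2 = 2 ^ 2 := by rw [sq_abs, h]; norm_num
  have := abs_nonneg (γ 0 0 + γ 1 1 : ℤ)
  nlinarith

theorem esa_elliptic_fix' (γ : SL(2, ℤ))
    (h : (γ : Matrix (Fin 2) (Fin 2) ℤ).trace ^ 2 < 4) : ∃ z : ℍ, γ • z = z := by
  apply esa_elliptic_fix
  rw [esa_trace_eq] at h
  rw [abs_lt]
  constructor <;> nlinarith

end Fermat.Agent.H60
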