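/-
P-ES / ES-A/GRP (helper60): the closed Props `EllipticFixStatement`, `FixTraceStatement`,
`ParabolicFormStatement` of `Fermat.Agent.H23.EsA.Lemmas` and `ParabolicConjStatement`,
`EllipticFixedStatement` of `Fermat.Agent.H94.EsA.Interfaces2`.
-/
import Fermat.Agent.H60.EsAGrp
import Fermat.Agent.H23.EsA.Lemmas
import Fermat.Agent.H94.EsA.Interfaces2

set_option autoImplicit false

namespace Fermat.Agent.H60

theorem ellipticFixStatement : Fermat.Agent.H23.EsA.EllipticFixStatement :=
  fun γ h => esa_elliptic_fix γ h

theorem fixTraceStatement : Fermat.Agent.H23.EsA.FixTraceStatement :=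
  fun γ z₀ h => esa_fix_trace γ z₀ h

theorem parabolicFormStatement : Fermat.Agent.H23.EsA.ParabolicFormStatement :=
  fun γ h => esa_parabolic_form γ h

theorem parabolicConjStatement : Fermat.Agent.H94.EsA.ParabolicConjStatement :=
  fun γ h => esa_parabolic_form' γ h

theorem ellipticFixedStatement : Fermat.Agent.H94.EsA.EllipticFixedStatement :=
  fun γ h => esa_elliptic_fix' γ h

end Fermat.Agent.H60
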