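/-
P-ES / ES-A/LOC (helper60): local lemmas at the cusp, tags CUSP-POW and CUSP-ROOT.

* `esa_cusp_mero`         : the cusp function of a periodic holomorphic function of moderate
                            growth is meromorphic at `0`;
* `esa_cusp_order_ne_top` : its order is finite when the function is not `0`;
* `esa_cusp_pow`          : order of a power at the cusp;
* `esa_cusp_root`         : `H(z + w) = ζ H(z)`, `ζ^m = 1`, cusp order of `H^m` divisible by `m`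
                            ⟹ `ζ = 1`.
-/
import Mathlib
import Fermat.Agent.H82.CuspMero
import Fermat.Agent.H41.AnCommon

set_option autoImplicit false

noncomputable section

open UpperHalfPlane Function Complex Filter
open scoped MatrixGroups Manifold Topology Real

namespace Fermat.Agent.H60

/-- Meromorphy of the cusp function. -/
theorem esa_cusp_mero (w : ℕ) (hw : 0 < w) (H : ℍ → ℂ) (hH : MDiff H)
    (hper : ∀ z : ℍ, H (ModularGroup.T ^ w • z) = H z)
    (hgrow : ∃ (M : ℕ) (C Y : ℝ), ∀ z : ℍ, Y ≤ z.im →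
      ‖H z‖ ≤ C * Real.exp (2 * Real.pi * M * z.im)) :
    MeromorphicAt (Periodic.cuspFunction (w : ℝ) (H ∘ ofComplex)) 0 := by
  obtain ⟨M, C, Y, h⟩ := hgrow
  have : NeZero w := ⟨hw.ne'⟩
  exact H82.cm_meromorphicAt_cuspFunction_of_growth w H hH hper M C Y h

/-- Finiteness of the order at the cusp of a nonzero function. -/
theorem esa_cusp_order_ne_top (w : ℕ) (hw : 0 < w) (H : ℍ → ℂ) (hH : MDiff H) (hH0 : H ≠ 0)
    (hper : ∀ z : ℍ, H (ModularGroup.T ^ w • z) = H z) :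
    meromorphicOrderAt (Periodic.cuspFunction (w : ℝ) (H ∘ ofComplex)) 0 ≠ ⊤ := by
  intro htop
  rw [meromorphicOrderAt_eq_top_iff] at htop
  have hw' : (0 : ℝ) < w := by exact_mod_cast hw
  have h1 := (Periodic.qParam_tendsto hw').eventually htop
  rw [Filter.eventually_comap] at h1
  obtain ⟨R, hR⟩ := Filter.eventually_atTop.mp h1
  apply hH0
  have : NeZero w := ⟨hw.ne'⟩
  have hzero : MDiff (0 : ℍ → ℂ) := by
    have : (0 : ℍ → ℂ) = fun _ => (0 : ℂ) := rfl
    rw [this]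
    exact mdifferentiable_const
  refine H41.eq_of_mdiff_of_forall_im_gt hH hzero R ?_
  intro z hz
  have h2 := hR z.im hz.le (z : ℂ) rfl
  rw [H82.cm_cuspFunction_qParam w H hper z] at h2
  simpa using h2

/-- **[CUSP-POW]** order of a power at the cusp. -/
theorem esa_cusp_pow (m w : ℕ) (hw : 0 < w) (H : ℍ → ℂ) (hH : MDiff H) (hH0 : H ≠ 0)
    (hper : ∀ z : ℍ, H (ModularGroup.T ^ w • z) = H z)
    (hgrow : ∃ (M : ℕ) (C Y : ℝ), ∀ z : ℍ, Y ≤ z.im →
      ‖H z‖ ≤ C * Real.exp (2 * Real.pi * M * z.im)) :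
    ∃ n : ℤ,
      meromorphicOrderAt (Periodic.cuspFunction (w : ℝ) (H ∘ ofComplex)) 0
        = ((n : ℤ) : WithTop ℤ) ∧
      meromorphicOrderAt (Periodic.cuspFunction (w : ℝ) ((H ^ m) ∘ ofComplex)) 0
        = (((m : ℤ) * n : ℤ) : WithTop ℤ) := by
  have hmer := esa_cusp_mero w hw H hH hper hgrow
  have hne := esa_cusp_order_ne_top w hw H hH hH0 hper
  obtain ⟨n, hn⟩ := WithTop.ne_top_iff_exists.mp hne
  refine ⟨n, hn.symm, ?_⟩
  have hcongr : Periodic.cuspFunction (w : ℝ) ((H ^ m) ∘ ofComplex) =ᶠ[𝓝[≠] 0]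
      (Periodic.cuspFunction (w : ℝ) (H ∘ ofComplex)) ^ m := by
    filter_upwards [self_mem_nhdsWithin] with t ht
    have ht0 : t ≠ 0 := ht
    rw [Pi.pow_apply, Periodic.cuspFunction_eq_of_nonzero _ _ ht0,
      Periodic.cuspFunction_eq_of_nonzero _ _ ht0]
    rfl
  rw [meromorphicOrderAt_congr hcongr, meromorphicOrderAt_pow hmer, ← hn]
  norm_cast

/-- If a meromorphic germ at `0` of finite order `n` satisfies `F (c t) = ζ F t`, then
`c ^ n = ζ`. -/
theorem esa_zpow_eq_of_comp_mul_eq {F : ℂ → ℂ} {c ζ : ℂ} (hc : c ≠ 0) {n : ℤ}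
    (hF : MeromorphicAt F 0) (hn : meromorphicOrderAt F 0 = n)
    (hinv : ∀ᶠ t in 𝓝[≠] (0 : ℂ), F (c * t) = ζ * F t) : c ^ n = ζ := by
  obtain ⟨g, hg, hg0, hev⟩ := (meromorphicOrderAt_eq_int_iff hF).mp hn
  have hev' : ∀ᶠ t in 𝓝[≠] (0 : ℂ), F (c * t) = (c * t - 0) ^ n • g (c * t) :=
    (H41.tendsto_mul_left_nhdsNE_zero hc).eventually hev
  have hkey : ∀ᶠ t in 𝓝[≠] (0 : ℂ), c ^ n * g (c * t) = ζ * g t := by
    filter_upwards [hev, hev', hinv, self_mem_nhdsWithin] with t h1 h2 h3 ht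
    have ht0 : t ≠ 0 := ht
    rw [h3, h1] at h2
    simp only [sub_zero, smul_eq_mul, mul_zpow] at h2
    have htn : t ^ n ≠ 0 := zpow_ne_zero n ht0
    have : t ^ n * (c ^ n * g (c * t)) = t ^ n * (ζ * g t) := by
      rw [← mul_assoc, ← mul_assoc, mul_comm (t ^ n) (c ^ n), ← h2]
      ring
    exact mul_left_cancel₀ htn this
  have hcont1 : Tendsto (fun t : ℂ => c ^ n * g (c * t)) (𝓝[≠] 0) (𝓝 (c ^ n * g 0)) := by
    have h1 : Tendsto (fun t : ℂ => c * t) (𝓝[≠] 0) (𝓝 0) :=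
      (H41.tendsto_mul_left_nhdsNE_zero hc).mono_right nhdsWithin_le_nhds
    have h2 : Tendsto (fun t : ℂ => g (c * t)) (𝓝[≠] 0) (𝓝 (g 0)) :=
      hg.continuousAt.tendsto.comp h1
    exact h2.const_mul _
  have hcont2 : Tendsto (fun t : ℂ => ζ * g t) (𝓝[≠] 0) (𝓝 (ζ * g 0)) :=
    (hg.continuousAt.tendsto.mono_left nhdsWithin_le_nhds).const_mul _
  have hlim : c ^ n * g 0 = ζ * g 0 :=
    tendsto_nhds_unique (hcont1.congr' hkey) hcont2
  exact mul_right_cancel₀ hg0 hlim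

/-- `t ↦ t ^ m` preserves the punctured neighbourhood filter of `0` (`m > 0`). -/
theorem esa_tendsto_pow_nhdsNE_zero {m : ℕ} (hm : 0 < m) :
    Tendsto (fun t : ℂ => t ^ m) (𝓝[≠] 0) (𝓝[≠] 0) := by
  refine tendsto_nhdsWithin_iff.mpr ⟨?_, ?_⟩
  · have : Tendsto (fun t : ℂ => t ^ m) (𝓝 0) (𝓝 ((0 : ℂ) ^ m)) :=
      (continuous_pow m).tendsto 0
    rw [zero_pow hm.ne'] at this
    exact this.mono_left nhdsWithin_le_nhds
  · filter_upwards [self_mem_nhdsWithin] with t ht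
    exact pow_ne_zero m ht

/-- Order at `0` of `t ↦ G (t ^ m)`. -/
theorem esa_order_comp_pow {G : ℂ → ℂ} {m : ℕ} (hm : 0 < m) {k : ℤ}
    (hG : MeromorphicAt G 0) (hk : meromorphicOrderAt G 0 = k) :
    MeromorphicAt (fun t => G (t ^ m)) 0 ∧
      meromorphicOrderAt (fun t => G (t ^ m)) 0 = (((m : ℤ) * k : ℤ) : WithTop ℤ) := by
  obtain ⟨g, hg, hg0, hev⟩ := (meromorphicOrderAt_eq_int_iff hG).mp hk
  have hev' : ∀ᶠ t in 𝓝[≠] (0 : ℂ), G (t ^ m) = (t ^ m - 0) ^ k • g (t ^ m) :=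
    (esa_tendsto_pow_nhdsNE_zero hm).eventually hev
  have hpow : AnalyticAt ℂ (fun t : ℂ => t ^ m) 0 := analyticAt_id.pow m
  have hgm : AnalyticAt ℂ (fun t : ℂ => g (t ^ m)) 0 := by
    have h0 : AnalyticAt ℂ g ((fun t : ℂ => t ^ m) 0) := by
      simpa [zero_pow hm.ne'] using hg
    exact AnalyticAt.comp (g := g) (f := fun t : ℂ => t ^ m) h0 hpow
  have hev2 : (fun t => G (t ^ m)) =ᶠ[𝓝[≠] 0]
      fun t => (t - 0) ^ ((m : ℤ) * k) • g (t ^ m) := by
    filter_upwards [hev'] with t ht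
    rw [ht]
    simp only [sub_zero]
    rw [← zpow_natCast t m, ← zpow_mul]
  have hmer2 : MeromorphicAt (fun t : ℂ => (t - 0) ^ ((m : ℤ) * k) • g (t ^ m)) 0 := by
    have hA : MeromorphicAt (fun t : ℂ => (t - 0) ^ ((m : ℤ) * k)) 0 :=
      ((MeromorphicAt.id 0).sub (MeromorphicAt.const 0 0)).zpow _
    exact hA.smul hgm.meromorphicAt
  have hmer : MeromorphicAt (fun t => G (t ^ m)) 0 := hmer2.congr hev2.symm
  refine ⟨hmer, ?_⟩
  rw [meromorphicOrderAt_eq_int_iff hmer]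
  refine ⟨fun t => g (t ^ m), hgm, ?_, hev2⟩
  simpa [zero_pow hm.ne'] using hg0

/-- `ofComplex (z + w) = T ^ w • z` for `z` in the upper half plane. -/
theorem esa_T_pow_smul (w : ℕ) (z : ℂ) (hz : 0 < z.im) :
    ModularGroup.T ^ w • (⟨z, hz⟩ : ℍ) = ofComplex (z + w) := by
  have hz' : 0 < (z + (w : ℂ)).im := by simpa using hz
  apply UpperHalfPlane.ext
  rw [ofComplex_apply_of_im_pos hz']
  have := ModularGroup.coe_T_zpow_smul_eq (z := (⟨z, hz⟩ : ℍ)) (n := (w : ℤ))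
  rw [zpow_natCast] at this
  rw [this]
  simp

/-- Points of the punctured unit disc come from the upper half plane. -/
theorem esa_im_invQParam_pos {W : ℝ} (hW : 0 < W) {t : ℂ} (ht0 : t ≠ 0) (ht1 : ‖t‖ < 1) :
    0 < (Periodic.invQParam W t).im := by
  rw [Periodic.im_invQParam]
  have hlog : Real.log ‖t‖ < 0 := Real.log_neg (norm_pos_iff.mpr ht0) ht1
  have hneg : -W / (2 * π) < 0 := by
    apply div_neg_of_neg_of_pos
    · linarith
    · positivity
  exact mul_pos_of_neg_of_neg hneg hlog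

/-- Eventually in the punctured neighbourhood of `0`: `t ≠ 0` and `‖t‖ < 1`. -/
theorem esa_eventually_punctured_disc :
    ∀ᶠ t in 𝓝[≠] (0 : ℂ), t ≠ 0 ∧ ‖t‖ < 1 := by
  have h1 : ∀ᶠ t in 𝓝[≠] (0 : ℂ), t ∈ Metric.ball (0 : ℂ) 1 :=
    nhdsWithin_le_nhds (Metric.ball_mem_nhds 0 one_pos)
  filter_upwards [h1, self_mem_nhdsWithin] with t h ht
  refine ⟨ht, ?_⟩
  simpa [Metric.mem_ball, dist_zero_right] using h

/-- **[CUSP-ROOT]** if `H(z + w) = ζ H(z)` with `ζ ^ m = 1`, and the order at the cusp of the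
`w`-periodic function `H ^ m` is divisible by `m`, then `ζ = 1`. -/
theorem esa_cusp_root (m w : ℕ) (hm : 0 < m) (hw : 0 < w) (H : ℍ → ℂ) (hH : MDiff H)
    (hH0 : H ≠ 0)
    (hgrow : ∃ (M : ℕ) (C Y : ℝ), ∀ z : ℍ, Y ≤ z.im →
      ‖H z‖ ≤ C * Real.exp (2 * Real.pi * M * z.im))
    (ζ : ℂ) (hζ : ζ ^ m = 1) (hper : ∀ z : ℍ, H (ModularGroup.T ^ w • z) = ζ * H z)
    (hd : ∃ d : ℤ, meromorphicOrderAt
      (Periodic.cuspFunction (w : ℝ) ((H ^ m) ∘ ofComplex)) 0
        = (((m : ℤ) * d : ℤ) : WithTop ℤ)) :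
    ζ = 1 := by
  obtain ⟨d, hd⟩ := hd
  set W : ℕ := w * m with hW
  have hWpos : 0 < W := Nat.mul_pos hw hm
  have hWR : (0 : ℝ) < (W : ℝ) := by exact_mod_cast hWpos
  have hwR : (0 : ℝ) < (w : ℝ) := by exact_mod_cast hw
  have hmC : (m : ℂ) ≠ 0 := by exact_mod_cast hm.ne'
  have hwC : (w : ℂ) ≠ 0 := by exact_mod_cast hw.ne'
  have hWC : ((W : ℝ) : ℂ) = (w : ℂ) * (m : ℂ) := by
    rw [hW]; push_cast; ring
  -- iterate the functional equation
  have hiter : ∀ (j : ℕ) (z : ℍ), H (ModularGroup.T ^ (w * j) • z) = ζ ^ j * H z := by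
    intro j
    induction j with
    | zero => intro z; simp
    | succ j ih =>
      intro z
      have e : ModularGroup.T ^ (w * (j + 1)) = ModularGroup.T ^ w * ModularGroup.T ^ (w * j) := by
        rw [← pow_add]
        congr 1
        ring
      rw [e, mul_smul, hper, ih, pow_succ]
      ring
  have hperW : ∀ z : ℍ, H (ModularGroup.T ^ W • z) = H z := by
    intro z
    rw [hW, hiter m z, hζ, one_mul]
  have hperm : ∀ z : ℍ, (H ^ m) (ModularGroup.T ^ w • z) = (H ^ m) z := by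
    intro z
    simp only [Pi.pow_apply]
    rw [hper, mul_pow, hζ, one_mul]
  have hgrowm : ∃ (M : ℕ) (C Y : ℝ), ∀ z : ℍ, Y ≤ z.im →
      ‖(H ^ m) z‖ ≤ C * Real.exp (2 * Real.pi * M * z.im) := by
    obtain ⟨M, C, Y, h⟩ := hgrow
    refine ⟨M * m, C ^ m, Y, fun z hz => ?_⟩
    have h1 := h z hz
    have h0 : 0 ≤ ‖H z‖ := norm_nonneg _
    simp only [Pi.pow_apply, norm_pow]
    calc ‖H z‖ ^ m ≤ (C * Real.exp (2 * Real.pi * M * z.im)) ^ m := pow_le_pow_left₀ h0 h1 m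
      _ = C ^ m * Real.exp (2 * Real.pi * ((M * m : ℕ) : ℝ) * z.im) := by
        rw [mul_pow, ← Real.exp_nat_mul]
        congr 2
        push_cast
        ring
  have hmH : MDiff (H ^ m) := by
    rw [UpperHalfPlane.mdifferentiable_iff] at hH ⊢
    have : (H ^ m) ∘ ofComplex = (H ∘ ofComplex) ^ m := rfl
    rw [this]
    exact hH.pow m
  have hmerG := esa_cusp_mero w hw (H ^ m) hmH hperm hgrowm
  have hmerF := esa_cusp_mero W hWpos H hH hperW hgrow
  have hneF := esa_cusp_order_ne_top W hWpos H hH hH0 hperW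
  obtain ⟨n₁, hn₁⟩ := WithTop.ne_top_iff_exists.mp hneF
  have hperF : Periodic (H ∘ ofComplex) (W : ℝ) := H82.cm_periodic_comp_ofComplex W H hperW
  have hperG : Periodic ((H ^ m) ∘ ofComplex) (w : ℝ) :=
    H82.cm_periodic_comp_ofComplex w (H ^ m) hperm
  set F₁ : ℂ → ℂ := Periodic.cuspFunction (W : ℝ) (H ∘ ofComplex) with hF₁
  set G : ℂ → ℂ := Periodic.cuspFunction (w : ℝ) ((H ^ m) ∘ ofComplex) with hG
  set c : ℂ := Periodic.qParam (W : ℝ) (w : ℂ) with hc
  have hc0 : c ≠ 0 := Periodic.qParam_ne_zero _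
  -- `c ^ m = 1`
  have hcm : c ^ m = 1 := by
    rw [hc, Periodic.qParam, ← Complex.exp_nat_mul, hWC]
    have : (m : ℂ) * (2 * π * Complex.I * (w : ℂ) / ((w : ℂ) * (m : ℂ))) = 2 * π * Complex.I := by
      field_simp
    rw [this, Complex.exp_two_pi_mul_I]
  -- functional equation of the cusp function
  have hinv : ∀ᶠ t in 𝓝[≠] (0 : ℂ), F₁ (c * t) = ζ * F₁ t := by
    filter_upwards [esa_eventually_punctured_disc] with t ht
    obtain ⟨ht0, ht1⟩ := ht
    set z : ℂ := Periodic.invQParam (W : ℝ) t with hz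
    have hzpos : 0 < z.im := esa_im_invQParam_pos hWR ht0 ht1
    have hq : Periodic.qParam (W : ℝ) z = t := Periodic.qParam_right_inv hWR.ne' ht0
    have hq2 : Periodic.qParam (W : ℝ) (z + w) = c * t := by
      rw [← hq, hc]
      simp only [Periodic.qParam]
      rw [← Complex.exp_add]
      congr 1
      ring
    have e1 : F₁ (c * t) = (H ∘ ofComplex) (z + w) := by
      rw [← hq2, hF₁, Periodic.eq_cuspFunction hWR.ne' hperF]
    have e2 : F₁ t = (H ∘ ofComplex) z := by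
      rw [hF₁, Periodic.cuspFunction_eq_of_nonzero _ _ ht0]
    rw [e1, e2]
    simp only [comp_apply]
    rw [← esa_T_pow_smul w z hzpos, hper, ofComplex_apply_of_im_pos hzpos]
  have hcz : c ^ n₁ = ζ := esa_zpow_eq_of_comp_mul_eq hc0 hmerF hn₁.symm hinv
  -- comparison with the cusp function of `H ^ m`
  have hcongr : F₁ ^ m =ᶠ[𝓝[≠] 0] fun t => G (t ^ m) := by
    filter_upwards [esa_eventually_punctured_disc] with t ht
    obtain ⟨ht0, ht1⟩ := ht
    set z : ℂ := Periodic.invQParam (W : ℝ) t with hz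
    have hzpos : 0 < z.im := esa_im_invQParam_pos hWR ht0 ht1
    have hq : Periodic.qParam (W : ℝ) z = t := Periodic.qParam_right_inv hWR.ne' ht0
    have hq2 : Periodic.qParam (w : ℝ) z = t ^ m := by
      rw [← hq]
      simp only [Periodic.qParam]
      rw [← Complex.exp_nat_mul, hWC]
      congr 1
      push_cast
      field_simp
    have e1 : G (t ^ m) = ((H ^ m) ∘ ofComplex) z := by
      rw [← hq2, hG, Periodic.eq_cuspFunction hwR.ne' hperG]
    have e2 : F₁ t = (H ∘ ofComplex) z := by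
      rw [hF₁, Periodic.cuspFunction_eq_of_nonzero _ _ ht0]
    rw [Pi.pow_apply, e1, e2]
    rfl
  have ho1 : meromorphicOrderAt (F₁ ^ m) 0 = (((m : ℤ) * n₁ : ℤ) : WithTop ℤ) := by
    rw [meromorphicOrderAt_pow hmerF, ← hn₁]
    norm_cast
  have ho2 := (esa_order_comp_pow hm hmerG hd).2
  rw [meromorphicOrderAt_congr hcongr, ho2] at ho1
  have ho3 : (m : ℤ) * ((m : ℤ) * d) = (m : ℤ) * n₁ := by exact_mod_cast ho1
  have hmZ : (m : ℤ) ≠ 0 := by exact_mod_cast hm.ne'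
  have hn : n₁ = (m : ℤ) * d := (mul_left_cancel₀ hmZ ho3).symm
  rw [← hcz, hn, zpow_mul, zpow_natCast, hcm, one_zpow]

end Fermat.Agent.H60
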