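/-
P-ES / ES-A/LOC (helper60): the closed Props `CuspPowStatement` and `CuspRootStatement` of
`Fermat.Agent.H23.EsA.Lemmas`.
-/
import Fermat.Agent.H60.EsACusp
import Fermat.Agent.H23.EsA.Lemmas

set_option autoImplicit false

namespace Fermat.Agent.H60

theorem cuspPowStatement : Fermat.Agent.H23.EsA.CuspPowStatement := by
  intro m w hw H hH hH0 hper hgrow
  exact esa_cusp_pow m w hw H hH hH0 hper hgrow

theorem cuspRootStatement : Fermat.Agent.H23.EsA.CuspRootStatement := by
  intro m w hm hw H hH hH0 hgrow ζ hζ hper hd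
  exact esa_cusp_root m w hm hw H hH hH0 hgrow ζ hζ hper hd

end Fermat.Agent.H60
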