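/-
P-ES / ES-E row 383 (helper60): centre property and isolation, abstract part.
Abstract function fields `F / K` and `Fb / k`, a map of places `r` preserving degrees, and
pairs `(g, gb)` such that `r_* div g = div gb`.  Pure divisor bookkeeping.
-/
import Fermat.Agent.H23.PlaceBasic

set_option autoImplicit false

noncomputable section

namespace Fermat.Agent.H60

open AlgebraicCurve

section Finsupp

variable {α β : Type*}

/-- Value of `mapDomain` as a sum over the support. -/
theorem ci_mapDomain_apply [DecidableEq β] (r : α → β) (D : α →₀ ℤ) (b : β) :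
    Finsupp.mapDomain r D b = ∑ a ∈ D.support, if r a = b then D a else 0 := by
  rw [Finsupp.mapDomain, Finsupp.sum_apply, Finsupp.sum]
  refine Finset.sum_congr rfl fun a _ => ?_
  rw [Finsupp.single_apply]

theorem ci_mapDomain_nonneg (r : α → β) (D : α →₀ ℤ) (hD : ∀ a, 0 ≤ D a) (b : β) :
    0 ≤ Finsupp.mapDomain r D b := by
  classical
  rw [ci_mapDomain_apply]
  refine Finset.sum_nonneg fun a _ => ?_
  split_ifs
  · exact hD a
  · exact le_rfl

theorem ci_le_mapDomain (r : α → β) (D : α →₀ ℤ) (hD : ∀ a, 0 ≤ D a) (a : α) :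
    D a ≤ Finsupp.mapDomain r D (r a) := by
  classical
  by_cases ha : a ∈ D.support
  · rw [ci_mapDomain_apply]
    have h := Finset.single_le_sum (f := fun a' => if r a' = r a then D a' else 0)
      (s := D.support) (fun a' _ => by
        show 0 ≤ (if r a' = r a then D a' else 0)
        split_ifs
        · exact hD a'
        · exact le_rfl) ha
    simpa using h
  · rw [Finsupp.notMem_support_iff.mp ha]
    exact ci_mapDomain_nonneg r D hD _

/-- Two distinct points in the same fibre. -/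
theorem ci_add_le_mapDomain (r : α → β) (D : α →₀ ℤ) (hD : ∀ a, 0 ≤ D a) {a a' : α}
    (hne : a' ≠ a) (hr : r a' = r a) :
    D a + D a' ≤ Finsupp.mapDomain r D (r a) := by
  classical
  have hsplit : D = D.erase a + Finsupp.single a (D a) := by
    rw [Finsupp.erase_add_single]
  have h1 : Finsupp.mapDomain r D (r a) =
      Finsupp.mapDomain r (D.erase a) (r a) + D a := by
    conv_lhs => rw [hsplit]
    rw [Finsupp.mapDomain_add, Finsupp.add_apply, Finsupp.mapDomain_single,
      Finsupp.single_eq_same]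
  have hE : ∀ x, 0 ≤ D.erase a x := by
    intro x
    by_cases hx : x = a
    · rw [hx, Finsupp.erase_same]
    · rw [Finsupp.erase_ne hx]
      exact hD x
  have h2 : D.erase a a' ≤ Finsupp.mapDomain r (D.erase a) (r a') :=
    ci_le_mapDomain r _ hE a'
  rw [Finsupp.erase_ne hne, hr] at h2
  rw [h1]
  linarith

end Finsupp

section Degree

variable {k Fb : Type*} [Field k] [Field Fb] [Algebra k Fb]

theorem ci_degree_eq_sum (D : Divisor k Fb) :
    Divisor.degree D = ∑ Q ∈ D.support, D Q * (Q.deg : ℤ) := by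
  simp [Divisor.degree, Finsupp.sum]

/-- An effective divisor of degree zero is zero (all places have positive degree). -/
theorem ci_eq_zero_of_nonneg (hpos : ∀ Q : Place k Fb, 0 < Q.deg) (D : Divisor k Fb)
    (hD : ∀ Q, 0 ≤ D Q) (hdeg : Divisor.degree D = 0) : D = 0 := by
  rw [ci_degree_eq_sum] at hdeg
  have h := (Finset.sum_eq_zero_iff_of_nonneg (fun Q _ =>
    mul_nonneg (hD Q) (Int.natCast_nonneg _))).mp hdeg
  ext Q
  by_cases hQ : Q ∈ D.support
  · have := h Q hQ
    have hq : (0 : ℤ) < (Q.deg : ℤ) := by exact_mod_cast hpos Q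
    rcases mul_eq_zero.mp this with h0 | h0
    · simpa using h0
    · omega
  · simpa using Finsupp.notMem_support_iff.mp hQ

end Degree

section Ord

variable {K F : Type*} [Field K] [Field F] [Algebra K F]

/-- If `f` has a pole at `P`, then `f - c` has the same order. -/
theorem ci_ord_sub_const_of_neg (P : Place K F) (f : F) (c : K) (h : P.ord f < 0) :
    P.ord (f - algebraMap K F c) = P.ord f := by
  have hf : f ≠ 0 := by
    rintro rfl
    simp at h
  by_cases hc : c = 0
  · simp [hc]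
  · have hc' : -algebraMap K F c ≠ 0 := by
      simpa using hc
    have h0 : P.ord (-algebraMap K F c) = 0 := by
      rw [Fermat.Agent.H23.ord_neg, Fermat.Agent.H23.ord_algebraMap]
    rw [sub_eq_add_neg]
    exact Fermat.Agent.H23.ord_add_eq_of_lt P hf hc' (by rw [h0]; exact h)

/-- If `f` has no pole at `P`, then neither has `f - c`. -/
theorem ci_ord_sub_const_nonneg (P : Place K F) (f : F) (c : K) (h : 0 ≤ P.ord f) :
    0 ≤ P.ord (f - algebraMap K F c) := by
  by_cases h0 : f - algebraMap K F c = 0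
  · rw [h0, Place.ord_zero]
  · rw [sub_eq_add_neg] at h0 ⊢
    refine Fermat.Agent.H23.ord_add_ge P h0 0 (Or.inr h) (Or.inr ?_)
    rw [Fermat.Agent.H23.ord_neg, Fermat.Agent.H23.ord_algebraMap]

/-- The zero part `ord (f - c) + max 0 (- ord f)` is nonnegative. -/
theorem ci_zero_part_nonneg (P : Place K F) (f : F) (c : K) :
    0 ≤ P.ord (f - algebraMap K F c) + max 0 (-(P.ord f)) := by
  rcases lt_or_ge (P.ord f) 0 with h | h
  · rw [ci_ord_sub_const_of_neg P f c h, max_eq_right (by omega)]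
    omega
  · have := ci_ord_sub_const_nonneg P f c h
    have h2 : (0 : ℤ) ≤ max 0 (-(P.ord f)) := le_max_left _ _
    omega

/-- At a pole of `f` the zero part vanishes. -/
theorem ci_zero_part_eq_zero (P : Place K F) (f : F) (c : K) (h : P.ord f < 0) :
    P.ord (f - algebraMap K F c) + max 0 (-(P.ord f)) = 0 := by
  rw [ci_ord_sub_const_of_neg P f c h, max_eq_right (by omega)]
  omega

/-- A function with a polar divisor of positive degree is not constant. -/
theorem ci_ne_const_of_polar {f : F} {n : ℤ} (hn : 0 < n) (Dp : Divisor K F)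
    (hDp : ∀ P, Dp P = max 0 (-(P.ord f))) (hdeg : Divisor.degree Dp = n) (c : K) :
    f - algebraMap K F c ≠ 0 := by
  intro h
  have hf : f = algebraMap K F c := sub_eq_zero.mp h
  have hzero : Dp = 0 := by
    ext P
    rw [hDp P, hf, Fermat.Agent.H23.ord_algebraMap]
    simp
  rw [hzero, map_zero] at hdeg
  omega

end Ord

section Center

variable {K F k Fb : Type*} [Field K] [Field F] [Algebra K F] [Field k] [Field Fb]
  [Algebra k Fb]

/-- `r` maps the divisor of `g` to the divisor of `gb`. -/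
def CiRed (r : Place K F → Place k Fb) (g : F) (gb : Fb) : Prop :=
  ∀ D : Divisor K F, (∀ P, D P = P.ord g) → ∀ Q, Finsupp.mapDomain r D Q = Q.ord gb

theorem CiRed.congr {r : Place K F → Place k Fb} {g g' : F} {gb : Fb} (h : CiRed r g gb)
    (hg : ∀ P : Place K F, P.ord g' = P.ord g) : CiRed r g' gb := by
  intro D hD Q
  exact h D (fun P => by rw [hD P, hg P]) Q

variable (r : Place K F → Place k Fb) (hdeg : ∀ P, (r P).deg = P.deg)
  (hpos : ∀ Q : Place k Fb, 0 < Q.deg)

include hdeg in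
theorem ci_degree_mapDomain (D : Divisor K F) :
    Divisor.degree (Finsupp.mapDomain r D) = Divisor.degree D := by
  induction D using Finsupp.induction_linear with
  | zero => simp
  | add D E hD hE => rw [Finsupp.mapDomain_add, map_add, map_add, hD, hE]
  | single P n =>
    rw [Finsupp.mapDomain_single, Divisor.degree_single, Divisor.degree_single, hdeg]

include hdeg hpos in
/-- **Poles reduce to poles**, divisor form: `r_* (f)_∞ = (fb)_∞`. -/
theorem ci_polar (f : F) (fb : Fb) (c : K) (cb : k) {n : ℤ}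
    (Dp : Divisor K F) (hDp : ∀ P, Dp P = max 0 (-(P.ord f))) (hDpdeg : Divisor.degree Dp = n)
    (Dpb : Divisor k Fb) (hDpb : ∀ Q, Dpb Q = max 0 (-(Q.ord fb)))
    (hDpbdeg : Divisor.degree Dpb = n)
    (Dg : Divisor K F) (hDg : ∀ P, Dg P = P.ord (f - algebraMap K F c))
    (hred : CiRed r (f - algebraMap K F c) (fb - algebraMap k Fb cb)) :
    Finsupp.mapDomain r Dp = Dpb := by
  have hZ : ∀ P, 0 ≤ (Dg + Dp) P := fun P => by
    rw [Finsupp.add_apply, hDg, hDp]
    exact ci_zero_part_nonneg P f c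
  have hDp0 : ∀ P, 0 ≤ Dp P := fun P => by
    rw [hDp]
    exact le_max_left _ _
  have hΔ : ∀ Q, 0 ≤ (Finsupp.mapDomain r Dp - Dpb) Q := by
    intro Q
    rw [Finsupp.sub_apply]
    rcases lt_or_ge (Q.ord fb) 0 with h | h
    · have h1 : Finsupp.mapDomain r (Dg + Dp) Q =
          Finsupp.mapDomain r Dg Q + Finsupp.mapDomain r Dp Q := by
        rw [Finsupp.mapDomain_add, Finsupp.add_apply]
      have h2 := hred Dg hDg Q
      have h3 := ci_zero_part_eq_zero Q fb cb h
      have h4 := ci_mapDomain_nonneg r (Dg + Dp) hZ Q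
      rw [hDpb Q]
      linarith
    · have h1 := ci_mapDomain_nonneg r Dp hDp0 Q
      rw [hDpb Q, max_eq_left (by omega)]
      linarith
  have hdeg0 : Divisor.degree (Finsupp.mapDomain r Dp - Dpb) = 0 := by
    rw [map_sub, ci_degree_mapDomain r hdeg, hDpdeg, hDpbdeg, sub_self]
  have := ci_eq_zero_of_nonneg hpos _ hΔ hdeg0
  exact sub_eq_zero.mp this

/-- Clause 1 of the centre property. -/
theorem ci_center_pole (f : F) (fb : Fb)
    (Dp : Divisor K F) (hDp : ∀ P, Dp P = max 0 (-(P.ord f)))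
    (Dpb : Divisor k Fb) (hDpb : ∀ Q, Dpb Q = max 0 (-(Q.ord fb)))
    (hpol : Finsupp.mapDomain r Dp = Dpb) (P : Place K F) (hP : P.ord f < 0) :
    (r P).ord fb < 0 := by
  have hDp0 : ∀ P, 0 ≤ Dp P := fun P => by
    rw [hDp]
    exact le_max_left _ _
  have h1 := ci_le_mapDomain r Dp hDp0 P
  rw [hpol, hDp P, hDpb (r P), max_eq_right (by omega)] at h1
  by_contra hcon
  rw [max_eq_left (by omega)] at h1
  omega

/-- Zeros reduce to zeros, divisor form. -/
theorem ci_zero_part (f : F) (fb : Fb) (c : K) (cb : k)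
    (Dp : Divisor K F) (Dpb : Divisor k Fb)
    (hpol : Finsupp.mapDomain r Dp = Dpb)
    (Dg : Divisor K F) (hDg : ∀ P, Dg P = P.ord (f - algebraMap K F c))
    (hred : CiRed r (f - algebraMap K F c) (fb - algebraMap k Fb cb)) (Q : Place k Fb) :
    Finsupp.mapDomain r (Dg + Dp) Q = Q.ord (fb - algebraMap k Fb cb) + Dpb Q := by
  rw [Finsupp.mapDomain_add, Finsupp.add_apply, hred Dg hDg Q, hpol]

/-- Clause 2 of the centre property. -/
theorem ci_center_zero (f : F) (fb : Fb) (c : K) (cb : k)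
    (Dp : Divisor K F) (hDp : ∀ P, Dp P = max 0 (-(P.ord f)))
    (Dpb : Divisor k Fb) (hDpb : ∀ Q, Dpb Q = max 0 (-(Q.ord fb)))
    (hpol : Finsupp.mapDomain r Dp = Dpb)
    (Dg : Divisor K F) (hDg : ∀ P, Dg P = P.ord (f - algebraMap K F c))
    (hred : CiRed r (f - algebraMap K F c) (fb - algebraMap k Fb cb))
    (P : Place K F) (hP : 0 < P.ord (f - algebraMap K F c)) :
    0 < (r P).ord (fb - algebraMap k Fb cb) := by
  have hZ : ∀ P, 0 ≤ (Dg + Dp) P := fun P => by
    rw [Finsupp.add_apply, hDg, hDp]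
    exact ci_zero_part_nonneg P f c
  have h1 := ci_le_mapDomain r (Dg + Dp) hZ P
  rw [ci_zero_part r f fb c cb Dp Dpb hpol Dg hDg hred, Finsupp.add_apply, hDg P, hDp P,
    hDpb (r P)] at h1
  have h0 : (0 : ℤ) ≤ max 0 (-(P.ord f)) := le_max_left _ _
  rcases lt_or_ge ((r P).ord fb) 0 with h | h
  · have := ci_zero_part_eq_zero (r P) fb cb h
    omega
  · rw [max_eq_left (by omega : -((r P).ord fb) ≤ 0)] at h1
    omega

/-- Clause 3 of the centre property: if `r_* div (f - c) = 0` then zeros of `f - c` reduce to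
poles of `fb`. -/
theorem ci_center_nonint (f : F) (fb : Fb) (c : K)
    (Dp : Divisor K F) (hDp : ∀ P, Dp P = max 0 (-(P.ord f)))
    (Dpb : Divisor k Fb) (hDpb : ∀ Q, Dpb Q = max 0 (-(Q.ord fb)))
    (hpol : Finsupp.mapDomain r Dp = Dpb)
    (Dg : Divisor K F) (hDg : ∀ P, Dg P = P.ord (f - algebraMap K F c))
    (hred : CiRed r (f - algebraMap K F c) (1 : Fb))
    (P : Place K F) (hP : 0 < P.ord (f - algebraMap K F c)) :
    (r P).ord fb < 0 := by
  have hZ : ∀ P, 0 ≤ (Dg + Dp) P := fun P => by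
    rw [Finsupp.add_apply, hDg, hDp]
    exact ci_zero_part_nonneg P f c
  have h1 := ci_le_mapDomain r (Dg + Dp) hZ P
  have h2 : Finsupp.mapDomain r (Dg + Dp) (r P) = Dpb (r P) := by
    rw [Finsupp.mapDomain_add, Finsupp.add_apply, hred Dg hDg, Place.ord_one, hpol, zero_add]
  rw [h2, Finsupp.add_apply, hDg P, hDp P, hDpb (r P)] at h1
  have h0 : (0 : ℤ) ≤ max 0 (-(P.ord f)) := le_max_left _ _
  by_contra hcon
  rw [max_eq_left (by omega : -((r P).ord fb) ≤ 0)] at h1
  omega

include hdeg hpos in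
/-- The three clauses of the centre property, abstract form. -/
theorem ci_center_abstract [HasPrincipalDivisors K F]
    (A : ValuationSubring K) (π : A →+* k) (f : F) (fb : Fb) {n : ℤ} (hn : 0 < n)
    (Dp : Divisor K F) (hDp : ∀ P, Dp P = max 0 (-(P.ord f))) (hDpdeg : Divisor.degree Dp = n)
    (Dpb : Divisor k Fb) (hDpb : ∀ Q, Dpb Q = max 0 (-(Q.ord fb)))
    (hDpbdeg : Divisor.degree Dpb = n)
    (hint : ∀ c : A, CiRed r (f - algebraMap K F (c : K)) (fb - algebraMap k Fb (π c)))
    (hnon : ∀ c : K, c ∉ A → CiRed r (f - algebraMap K F c) (1 : Fb)) :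
    Finsupp.mapDomain r Dp = Dpb ∧
    ∀ P : Place K F,
      (P.ord f < 0 → (r P).ord fb < 0) ∧
      (∀ c : A, 0 < P.ord (f - algebraMap K F (c : K)) →
        0 < (r P).ord (fb - algebraMap k Fb (π c))) ∧
      (∀ c : K, c ∉ A → 0 < P.ord (f - algebraMap K F c) → (r P).ord fb < 0) := by
  have hex : ∀ c : K, ∃ Dg : Divisor K F, ∀ P, Dg P = P.ord (f - algebraMap K F c) := by
    intro c
    obtain ⟨D, hD, -⟩ := HasPrincipalDivisors.exists_divisor (K := K)
      (f - algebraMap K F c) (ci_ne_const_of_polar hn Dp hDp hDpdeg c)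
    exact ⟨D, hD⟩
  have hpol : Finsupp.mapDomain r Dp = Dpb := by
    obtain ⟨Dg, hDg⟩ := hex ((0 : A) : K)
    exact ci_polar r hdeg hpos f fb ((0 : A) : K) (π 0) Dp hDp hDpdeg Dpb hDpb hDpbdeg Dg hDg
      (hint 0)
  refine ⟨hpol, fun P => ⟨?_, ?_, ?_⟩⟩
  · exact ci_center_pole r f fb Dp hDp Dpb hDpb hpol P
  · intro c hc
    obtain ⟨Dg, hDg⟩ := hex (c : K)
    exact ci_center_zero r f fb (c : K) (π c) Dp hDp Dpb hDpb hpol Dg hDg (hint c) P hc
  · intro c hcA hc
    obtain ⟨Dg, hDg⟩ := hex c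
    exact ci_center_nonint r f fb c Dp hDp Dpb hDpb hpol Dg hDg (hnon c hcA) P hc

include hdeg hpos in
/-- Isolation, abstract form. -/
theorem ci_isolation_abstract [HasPrincipalDivisors K F]
    (hdeg1 : ∀ P : Place K F, P.deg = 1)
    (A : ValuationSubring K) (π : A →+* k) (f : F) (fb : Fb) {n : ℤ} (hn : 0 < n)
    (Dp : Divisor K F) (hDp : ∀ P, Dp P = max 0 (-(P.ord f))) (hDpdeg : Divisor.degree Dp = n)
    (Dpb : Divisor k Fb) (hDpb : ∀ Q, Dpb Q = max 0 (-(Q.ord fb)))
    (hDpbdeg : Divisor.degree Dpb = n)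
    (hint : ∀ c : A, CiRed r (f - algebraMap K F (c : K)) (fb - algebraMap k Fb (π c)))
    (hnon : ∀ c : K, c ∉ A → CiRed r (f - algebraMap K F c) (1 : Fb))
    (P₁ : Place K F) (S : Set (Place k Fb))
    (h1 : (r P₁).ord fb = 1) (hS : ∀ Q ∈ S, Q ≠ r P₁ → Q.ord fb = 0) :
    ∃ c : A, π c = 0 ∧ ∃ D : Divisor K F,
      (∀ P, D P = P.ord (f - algebraMap K F (c : K))) ∧ D P₁ = 1 ∧
        ∀ P', P' ≠ P₁ → D P' ≠ 0 → r P' ∉ S := by
  obtain ⟨hpol, hcen⟩ := ci_center_abstract r hdeg hpos A π f fb hn Dp hDp hDpdeg Dpb hDpb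
    hDpbdeg hint hnon
  -- `P₁` is not a pole
  have hP₁ : 0 ≤ P₁.ord f := by
    by_contra hcon
    have := (hcen P₁).1 (by omega)
    omega
  -- the value at `P₁`
  obtain ⟨c₁, hc₁⟩ := Fermat.Agent.H23.exists_const_ord_sub_pos P₁ (hdeg1 P₁)
    (f := f) (Or.inr hP₁)
  have hc₁' : 0 < P₁.ord (f - algebraMap K F c₁) := by
    rcases hc₁ with h | h
    · exact absurd (sub_eq_zero.mpr h) (ci_ne_const_of_polar hn Dp hDp hDpdeg c₁)
    · exact h
  have hc₁A : c₁ ∈ A := by
    by_contra hcon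
    have := (hcen P₁).2.2 c₁ hcon hc₁'
    omega
  have hfbne : ∀ cb : k, fb - algebraMap k Fb cb ≠ 0 :=
    ci_ne_const_of_polar hn Dpb hDpb hDpbdeg
  have hπc : π ⟨c₁, hc₁A⟩ = 0 := by
    by_contra hne
    have h2 := (hcen P₁).2.1 ⟨c₁, hc₁A⟩ hc₁'
    have h3 : (0 : ℤ) < (r P₁).ord (fb + -(fb - algebraMap k Fb (π ⟨c₁, hc₁A⟩))) := by
      refine Fermat.Agent.H23.ord_add_ge (r P₁) ?_ 1 (Or.inr (by omega)) (Or.inr ?_)
      · simpa using hne
      · rw [Fermat.Agent.H23.ord_neg]
        omega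
    have h4 : fb + -(fb - algebraMap k Fb (π ⟨c₁, hc₁A⟩)) = algebraMap k Fb (π ⟨c₁, hc₁A⟩) := by
      ring
    rw [h4, Fermat.Agent.H23.ord_algebraMap] at h3
    exact lt_irrefl _ h3
  refine ⟨⟨c₁, hc₁A⟩, hπc, ?_⟩
  obtain ⟨Dg, hDg, -⟩ := HasPrincipalDivisors.exists_divisor (K := K)
    (f - algebraMap K F c₁) (ci_ne_const_of_polar hn Dp hDp hDpdeg c₁)
  refine ⟨Dg, hDg, ?_, ?_⟩
  all_goals
    have hZ : ∀ P, 0 ≤ (Dg + Dp) P := fun P => by
      rw [Finsupp.add_apply, hDg, hDp]
      exact ci_zero_part_nonneg P f c₁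
    have hred : CiRed r (f - algebraMap K F c₁) (fb - algebraMap k Fb (π ⟨c₁, hc₁A⟩)) :=
      hint ⟨c₁, hc₁A⟩
    have hmap : ∀ Q, Finsupp.mapDomain r (Dg + Dp) Q = Q.ord fb + Dpb Q := by
      intro Q
      rw [ci_zero_part r f fb c₁ (π ⟨c₁, hc₁A⟩) Dp Dpb hpol Dg hDg hred, hπc, map_zero,
        sub_zero]
    have hmap₁ : Finsupp.mapDomain r (Dg + Dp) (r P₁) = 1 := by
      rw [hmap, hDpb, h1]
      simp
    have hZ₁ : (Dg + Dp) P₁ = Dg P₁ := by
      rw [Finsupp.add_apply, hDp, max_eq_left (by omega), add_zero]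
  · -- `D P₁ = 1`
    have h2 := ci_le_mapDomain r (Dg + Dp) hZ P₁
    rw [hmap₁, hZ₁] at h2
    have h3 : 0 < Dg P₁ := by rw [hDg]; exact hc₁'
    omega
  · -- the other points
    intro P' hne hD' hS'
    by_cases hQ : r P' = r P₁
    · have h2 := ci_add_le_mapDomain r (Dg + Dp) hZ hne hQ
      rw [hmap₁, hZ₁] at h2
      have h3 : 0 < Dg P₁ := by rw [hDg]; exact hc₁'
      have h4 := hZ P'
      have h5 : (Dg + Dp) P' = 0 := by omega
      have h6 : 0 ≤ P'.ord f := by
        by_contra hcon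
        have := (hcen P').1 (by omega)
        rw [hQ, h1] at this
        omega
      rw [Finsupp.add_apply, hDp, max_eq_left (by omega), add_zero] at h5
      exact hD' h5
    · have h2 : (r P').ord fb = 0 := hS _ hS' hQ
      rcases lt_trichotomy (Dg P') 0 with h | h | h
      · have h3 : P'.ord f < 0 := by
          by_contra hcon
          have := ci_ord_sub_const_nonneg P' f c₁ (by omega)
          rw [hDg] at h
          omega
        have := (hcen P').1 h3
        omega
      · exact hD' h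
      · rw [hDg] at h
        have := (hcen P').2.1 ⟨c₁, hc₁A⟩ h
        rw [hπc, map_zero, sub_zero] at this
        omega

end Center

end Fermat.Agent.H60

end
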