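/-
P-ES / ES-E row 383 (helper60): `CenterIsoStatement` -- good series have the centre property,
and lifting of functions with degree control gives the isolation property.
-/
import Fermat.Agent.H36.ESE.Rows
import Fermat.Agent.H60.CenterIsoAbstract

set_option autoImplicit false
set_option linter.style.haveILetI false
set_option linter.unusedSectionVars false

noncomputable section

namespace Fermat.Agent.H60

open ModularCurve AlgebraicCurve HahnSeries IntermediateField Fermat.Agent.H36

section Concrete

variable {L : Type} [Field L] [Algebra ℚ L] {A : ValuationSubring L}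
variable {k : Type} [Field k] {π : A →+* k} {N : ℕ}
variable {r : Place L (laurentBaseChange L (modularFunctionFieldFull N)) →
      Place k (modularFunctionFieldFullC k N)}

theorem ci_coeffMap_subtype_single (c : A) :
    coeffMap A.subtype (HahnSeries.single 0 c) = algebraMap L (LaurentSeries L) (c : L) := by
  rw [coeffMap_single, algebraMap_laurentSeries_eq_single]
  rfl

theorem ci_coeffMap_pi_single (π : A →+* k) (c : A) :
    coeffMap π (HahnSeries.single 0 c) = algebraMap k (LaurentSeries k) (π c) := by
  rw [coeffMap_single, algebraMap_laurentSeries_eq_single]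

/-- The prelude axiom, in the form `CiRed`. -/
theorem ci_red_of_series (hr : IsPlaceReductionAlong A π N r) (z : LaurentSeries A)
    (g : laurentBaseChange L (modularFunctionFieldFull N)) (gb : modularFunctionFieldFullC k N)
    (hg : (g : LaurentSeries L) = coeffMap A.subtype z)
    (hgb : (gb : LaurentSeries k) = coeffMap π z) (hne : gb ≠ 0) : CiRed r g gb := by
  have hz : coeffMap A.subtype z ∈ laurentBaseChange L (modularFunctionFieldFull N) :=
    hg ▸ g.2
  have hzk : coeffMap π z ∈ modularFunctionFieldFullC k N := hgb ▸ gb.2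
  have hg' : g = ⟨coeffMap A.subtype z, hz⟩ := Subtype.ext hg
  have hgb' : gb = ⟨coeffMap π z, hzk⟩ := Subtype.ext hgb
  have hne' : coeffMap π z ≠ 0 := by
    intro h
    apply hne
    rw [hgb']
    exact Subtype.ext h
  intro D hD Q
  rw [hgb']
  refine hr.2 z hz hzk hne' D (fun P => ?_) Q
  rw [hD P, hg']

end Concrete

/-- **Row E-CENTER** of ES-E. -/
theorem centerIsoStatement : Fermat.Agent.H36.CenterIsoStatement := by
  intro L _ _ A k _ π N r hπ hr hPL hPk hdeg1 hpos
  haveI := hPL
  -- the common part: the two families of reduction pairs for a good series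
  have key : ∀ (y : LaurentSeries A)
      (hL : coeffMap A.subtype y ∈ laurentBaseChange L (modularFunctionFieldFull N))
      (hk : coeffMap π y ∈ modularFunctionFieldFullC k N) (n : ℤ), 0 < n →
      ∀ (Dp : Divisor L (laurentBaseChange L (modularFunctionFieldFull N))),
      (∀ P, Dp P = max 0 (-(P.ord (⟨coeffMap A.subtype y, hL⟩ :
          laurentBaseChange L (modularFunctionFieldFull N))))) → Divisor.degree Dp = n →
      ∀ (Dpb : Divisor k (modularFunctionFieldFullC k N)),
      (∀ Q, Dpb Q = max 0 (-(Q.ord (⟨coeffMap π y, hk⟩ : modularFunctionFieldFullC k N)))) →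
      Divisor.degree Dpb = n →
      (∀ c : A, CiRed r ((⟨coeffMap A.subtype y, hL⟩ :
          laurentBaseChange L (modularFunctionFieldFull N)) - algebraMap L _ (c : L))
          ((⟨coeffMap π y, hk⟩ : modularFunctionFieldFullC k N) - algebraMap k _ (π c))) ∧
      (∀ c : L, c ∉ A → CiRed r ((⟨coeffMap A.subtype y, hL⟩ :
          laurentBaseChange L (modularFunctionFieldFull N)) - algebraMap L _ c)
          (1 : modularFunctionFieldFullC k N)) := by
    intro y hL hk n hn Dp hDp hDpdeg Dpb hDpb hDpbdeg
    refine ⟨fun c => ?_, fun c hc => ?_⟩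
    · refine ci_red_of_series hr (y - HahnSeries.single 0 c) _ _ ?_ ?_
        (ci_ne_const_of_polar hn Dpb hDpb hDpbdeg (π c))
      · rw [map_sub, ci_coeffMap_subtype_single]
        rfl
      · rw [map_sub, ci_coeffMap_pi_single]
        rfl
    · -- `c⁻¹` is a nonunit of `A`
      have hc0 : c ≠ 0 := by
        rintro rfl
        exact hc A.zero_mem
      have hcinv : c⁻¹ ∈ A := (A.mem_or_inv_mem c).resolve_left hc
      have hnonunit : c⁻¹ ∈ A.nonunits := by
        rw [ValuationSubring.mem_nonunits_iff_exists_mem_maximalIdeal]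
        refine ⟨hcinv, ?_⟩
        rw [IsLocalRing.mem_maximalIdeal, mem_nonunits_iff]
        intro hu
        obtain ⟨u, hu⟩ := hu
        apply hc
        have h1 : ((u⁻¹ : Aˣ) : A) * (⟨c⁻¹, hcinv⟩ : A) = 1 := by
          rw [← hu]
          exact u.inv_mul
        have h2 : (((u⁻¹ : Aˣ) : A) : L) * c⁻¹ = 1 := congrArg Subtype.val h1
        have h3 : (((u⁻¹ : Aˣ) : A) : L) = c := by
          field_simp at h2
          exact h2
        rw [← h3]
        exact ((u⁻¹ : Aˣ) : A).2
      have hπc : π ⟨c⁻¹, hcinv⟩ = 0 := (hπ.ker _).mpr hnonunit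
      have hred : CiRed r ((1 : laurentBaseChange L (modularFunctionFieldFull N)) -
          algebraMap L _ c⁻¹ * (⟨coeffMap A.subtype y, hL⟩ :
            laurentBaseChange L (modularFunctionFieldFull N)))
          (1 : modularFunctionFieldFullC k N) := by
        refine ci_red_of_series hr (1 - HahnSeries.single 0 (⟨c⁻¹, hcinv⟩ : A) * y) _ _ ?_ ?_
          one_ne_zero
        · rw [map_sub, map_mul, map_one, ci_coeffMap_subtype_single]
          rfl
        · rw [map_sub, map_mul, map_one, ci_coeffMap_pi_single, hπc, map_zero, zero_mul,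
            sub_zero]
          rfl
      refine hred.congr fun P => ?_
      have hne := ci_ne_const_of_polar hn Dp hDp hDpdeg c
      have hc' : algebraMap L (laurentBaseChange L (modularFunctionFieldFull N)) c⁻¹ ≠ 0 := by
        rw [Ne, map_eq_zero]
        exact inv_ne_zero hc0
      have hcc : algebraMap L (laurentBaseChange L (modularFunctionFieldFull N)) c⁻¹ *
          algebraMap L (laurentBaseChange L (modularFunctionFieldFull N)) c = 1 := by
        rw [← map_mul, inv_mul_cancel₀ hc0, map_one]
      have heq : (1 : laurentBaseChange L (modularFunctionFieldFull N)) -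
          algebraMap L _ c⁻¹ * (⟨coeffMap A.subtype y, hL⟩ :
            laurentBaseChange L (modularFunctionFieldFull N)) =
          (-algebraMap L _ c⁻¹) * ((⟨coeffMap A.subtype y, hL⟩ :
            laurentBaseChange L (modularFunctionFieldFull N)) - algebraMap L _ c) := by
        linear_combination -hcc
      rw [heq, P.ord_mul (neg_ne_zero.mpr hc') hne, Fermat.Agent.H23.ord_neg,
        Fermat.Agent.H23.ord_algebraMap, zero_add]
  refine ⟨fun y hy => ?_, fun hgood => ?_⟩
  · obtain ⟨hL, hk, n, ⟨Dp, hDp, hDpdeg⟩, ⟨Dpb, hDpb, hDpbdeg⟩, hn⟩ := hy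
    obtain ⟨hint, hnon⟩ := key y hL hk n hn Dp hDp hDpdeg Dpb hDpb hDpbdeg
    refine ⟨hL, hk, ?_⟩
    exact (ci_center_abstract r hr.1 hpos A π _ _ hn Dp hDp hDpdeg Dpb hDpb hDpbdeg
      hint hnon).2
  · intro P₁ S
    obtain ⟨y, hy, hk, h1, hS⟩ := hgood (r P₁) S
    obtain ⟨hL, hk', n, ⟨Dp, hDp, hDpdeg⟩, ⟨Dpb, hDpb, hDpbdeg⟩, hn⟩ := hy
    obtain ⟨hint, hnon⟩ := key y hL hk n hn Dp hDp hDpdeg Dpb hDpb hDpbdeg
    obtain ⟨c, hπc, D, hD, hD1, hD'⟩ := ci_isolation_abstract r hr.1 hpos hdeg1 A π _ _ hn
      Dp hDp hDpdeg Dpb hDpb hDpbdeg hint hnon P₁ (S : Set _) h1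
      (fun Q hQ hne => hS Q hQ hne)
    refine ⟨D, ⟨y - HahnSeries.single 0 c, ?_, ?_, ?_, ?_⟩, hD1, hD'⟩
    · rw [map_sub, ci_coeffMap_subtype_single]
      exact sub_mem hL (IntermediateField.algebraMap_mem _ _)
    · rw [map_sub, ci_coeffMap_pi_single, hπc, map_zero, sub_zero]
      exact hk
    · rw [map_sub, ci_coeffMap_pi_single, hπc, map_zero, sub_zero]
      intro h0
      have := ci_ne_const_of_polar hn Dpb hDpb hDpbdeg (0 : k)
      apply this
      rw [map_zero, sub_zero]
      exact Subtype.ext h0
    · intro P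
      rw [hD P]
      have hz : coeffMap A.subtype (y - HahnSeries.single 0 c) =
          coeffMap A.subtype y - algebraMap L (LaurentSeries L) (c : L) := by
        rw [map_sub, ci_coeffMap_subtype_single]
      congr 1
      exact Subtype.ext hz.symm

end Fermat.Agent.H60

end
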