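import Mathlib

/-!
# Halving step with height bound on `E' : y² = x (x - 1) (x - 81)`

If `x > 81` is rational and `x`, `x - 1`, `x - 81` are all squares, then the point with
abscissa `x` is twice a rational point `(x₂, y₂)` with `x₂ > 81`, and the numerator of `x₂`
is controlled by the numerator of `x`:  `x₂.num ^ 2 ≤ 324 * x.num`.
-/

namespace Fermat.Agent.H60

/-- Height lemma: if `α > 0`, `r > 0` are rationals and `c > 0` is an integer with
`α ^ 2 + c = 2 * r * α`, then `α.num ^ 2 ≤ 2 * c * r.num`. -/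
theorem C3_num_sq_le (r α : ℚ) (c : ℤ) (hc : 0 < c) (hr : 0 < r) (hα : 0 < α)
    (h : α ^ 2 + (c : ℚ) = 2 * r * α) : α.num ^ 2 ≤ 2 * c * r.num := by
  have hm0 : 0 < α.num := Rat.num_pos.mpr hα
  have hn0 : (0 : ℤ) < (α.den : ℤ) := by exact_mod_cast α.den_pos
  have hu0 : 0 < r.num := Rat.num_pos.mpr hr
  have he0 : (0 : ℤ) < (r.den : ℤ) := by exact_mod_cast r.den_pos
  have hcop : IsCoprime α.num (α.den : ℤ) := Rat.isCoprime_num_den α
  -- the integer equation
  have heq : (α.num ^ 2 + c * (α.den : ℤ) ^ 2) * (r.den : ℤ) = 2 * r.num * α.num * (α.den : ℤ) := by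
    have hα' : (α.num : ℚ) / (α.den : ℚ) = α := Rat.num_div_den α
    have hr' : (r.num : ℚ) / (r.den : ℚ) = r := Rat.num_div_den r
    have key : ((α.num : ℚ) / (α.den : ℚ)) ^ 2 + (c : ℚ)
        = 2 * ((r.num : ℚ) / (r.den : ℚ)) * ((α.num : ℚ) / (α.den : ℚ)) := by
      rw [hα', hr']; exact h
    have hn' : (α.den : ℚ) ≠ 0 := by exact_mod_cast α.den_pos.ne'
    have he' : (r.den : ℚ) ≠ 0 := by exact_mod_cast r.den_pos.ne'
    have key2 : (((α.num : ℚ)) ^ 2 + (c : ℚ) * (α.den : ℚ) ^ 2) * (r.den : ℚ)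
        = 2 * (r.num : ℚ) * (α.num : ℚ) * (α.den : ℚ) := by
      field_simp at key
      linear_combination key
    exact_mod_cast key2
  have hT_cop : IsCoprime (α.num ^ 2 + c * (α.den : ℤ) ^ 2) (α.den : ℤ) := by
    have := (hcop.pow_left (m := 2)).add_mul_right_left (c * (α.den : ℤ))
    have e : α.num ^ 2 + c * (α.den : ℤ) * (α.den : ℤ) = α.num ^ 2 + c * (α.den : ℤ) ^ 2 := by ring
    rwa [e] at this
  have hdvd1 : (α.num ^ 2 + c * (α.den : ℤ) ^ 2) ∣ 2 * r.num * α.num * (α.den : ℤ) :=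
    Dvd.intro _ heq
  have hdvd2 : (α.num ^ 2 + c * (α.den : ℤ) ^ 2) ∣ 2 * r.num * α.num :=
    hT_cop.dvd_of_dvd_mul_right hdvd1
  have hdvd3 : (α.num ^ 2 + c * (α.den : ℤ) ^ 2) ∣ (2 * r.num * c) * (α.den : ℤ) ^ 2 := by
    have h1 : (α.num ^ 2 + c * (α.den : ℤ) ^ 2) ∣ 2 * r.num * α.num * α.num :=
      Dvd.dvd.mul_right hdvd2 α.num
    have h2 : (α.num ^ 2 + c * (α.den : ℤ) ^ 2)
        ∣ 2 * r.num * (α.num ^ 2 + c * (α.den : ℤ) ^ 2) := Dvd.intro_left _ rfl
    have h3 := dvd_sub h2 h1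
    have e : 2 * r.num * (α.num ^ 2 + c * (α.den : ℤ) ^ 2) - 2 * r.num * α.num * α.num
        = (2 * r.num * c) * (α.den : ℤ) ^ 2 := by ring
    rwa [e] at h3
  have hdvd4 : (α.num ^ 2 + c * (α.den : ℤ) ^ 2) ∣ 2 * r.num * c :=
    (hT_cop.pow_right (n := 2)).dvd_of_dvd_mul_right hdvd3
  have hle : α.num ^ 2 + c * (α.den : ℤ) ^ 2 ≤ 2 * r.num * c :=
    Int.le_of_dvd (by positivity) hdvd4
  have hcn : 0 ≤ c * (α.den : ℤ) ^ 2 := by positivity
  linarith

/-- The numerator of a product divides the product of the numerators. -/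
theorem C3_mul_num_dvd (q s : ℚ) : (q * s).num ∣ q.num * s.num := by
  have h := Rat.mul_num_den' q s
  have hcop : IsCoprime (q * s).num ((q * s).den : ℤ) := Rat.isCoprime_num_den (q * s)
  refine hcop.dvd_of_dvd_mul_right ?_
  rw [← h]
  exact Dvd.intro ((q.den : ℤ) * (s.den : ℤ)) (by ring)

/-- **Halving with height bound** on `E' : y² = x (x - 1) (x - 81)`. -/
theorem C3_halve (x : ℚ) (hx : 81 < x) (h0 : IsSquare x) (h1 : IsSquare (x - 1))
    (h81 : IsSquare (x - 81)) :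
    ∃ x₂ y₂ : ℚ, 81 < x₂ ∧ y₂ ^ 2 = x₂ * (x₂ - 1) * (x₂ - 81) ∧ x₂.num ^ 2 ≤ 324 * x.num := by
  obtain ⟨r0, hr0⟩ := h0
  obtain ⟨a0, ha0⟩ := h1
  obtain ⟨b0, hb0⟩ := h81
  have hr : x = |r0| * |r0| := by rw [hr0]; exact (abs_mul_abs_self r0).symm
  have ha : x - 1 = |a0| * |a0| := by rw [ha0]; exact (abs_mul_abs_self a0).symm
  have hb : x - 81 = |b0| * |b0| := by rw [hb0]; exact (abs_mul_abs_self b0).symm
  have hr_nn : 0 ≤ |r0| := abs_nonneg _
  have ha_nn : 0 ≤ |a0| := abs_nonneg _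
  have hb_nn : 0 ≤ |b0| := abs_nonneg _
  generalize |r0| = r at hr hr_nn
  generalize |a0| = a at ha ha_nn
  generalize |b0| = b at hb hb_nn
  have hr_pos : 0 < r := by
    rcases hr_nn.lt_or_eq with h | h
    · exact h
    · exfalso
      rw [← h] at hr
      linarith
  have hα : 0 < r + a := by linarith
  have hβ : 0 < r + b := by linarith
  refine ⟨(r + a) * (r + b), (r + a) * (r + b) * (a + b), ?_, ?_, ?_⟩
  · nlinarith [mul_nonneg ha_nn hb_nn, mul_nonneg hr_nn ha_nn, mul_nonneg hr_nn hb_nn]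
  · have e1 : (r + a) * (r + b) - 1 = (a + r) * (a + b) := by linear_combination ha - hr
    have e2 : (r + a) * (r + b) - 81 = (b + r) * (b + a) := by linear_combination hb - hr
    rw [e1, e2]; ring
  · have k1 : (r + a).num ^ 2 ≤ 2 * 1 * r.num :=
      C3_num_sq_le r (r + a) 1 one_pos hr_pos hα (by push_cast; linear_combination hr - ha)
    have k2 : (r + b).num ^ 2 ≤ 2 * 81 * r.num :=
      C3_num_sq_le r (r + b) 81 (by norm_num) hr_pos hβ
        (by push_cast; linear_combination hr - hb)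
    have hxnum : x.num = r.num * r.num := by rw [hr]; exact Rat.mul_self_num r
    have hA : 0 < (r + a).num := Rat.num_pos.mpr hα
    have hB : 0 < (r + b).num := Rat.num_pos.mpr hβ
    have hu : 0 < r.num := Rat.num_pos.mpr hr_pos
    have hN : 0 < ((r + a) * (r + b)).num := Rat.num_pos.mpr (mul_pos hα hβ)
    have hle : ((r + a) * (r + b)).num ≤ (r + a).num * (r + b).num :=
      Int.le_of_dvd (mul_pos hA hB) (C3_mul_num_dvd _ _)
    have s1 : ((r + a) * (r + b)).num ^ 2 ≤ ((r + a).num * (r + b).num) ^ 2 :=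
      pow_le_pow_left₀ hN.le hle 2
    have s2 : (r + a).num ^ 2 * (r + b).num ^ 2 ≤ (2 * 1 * r.num) * (2 * 81 * r.num) :=
      mul_le_mul k1 k2 (sq_nonneg _) (by positivity)
    rw [hxnum]
    calc ((r + a) * (r + b)).num ^ 2 ≤ ((r + a).num * (r + b).num) ^ 2 := s1
      _ = (r + a).num ^ 2 * (r + b).num ^ 2 := by ring
      _ ≤ (2 * 1 * r.num) * (2 * 81 * r.num) := s2
      _ = 324 * (r.num * r.num) := by ring

end Fermat.Agent.H60
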