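import Fermat.Agent.H23.BlueprintAn

/-!
# GEN-11, part (4): the function field of `X₀(N)` over `ℚ̄` is the fraction field of `Rsub N`

Every element of `modularFunctionFieldBar N` is a quotient of two elements of the
`ℚ̄`-subalgebra `Rsub N` generated by the `j(q^d)`, `d ∣ N`.  This is the last clause of
`Fermat.Agent.H23.CoreStatement`.
-/

set_option autoImplicit false

noncomputable section

open IntermediateField

namespace Fermat.Agent.H60

open Fermat.Agent.H23

/-- The generators `j(q^d)`, `d ∣ N`, as Laurent series over `ℚ̄`. -/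
def gen11Gens (N : ℕ) : Set (LaurentSeries (AlgebraicClosure ℚ)) :=
  {x | ∃ (d : ℕ) (_ : NeZero d), d ∣ N ∧
    x = ModularCurve.coeffEmb (AlgebraicClosure ℚ) (ModularCurve.qExpand ℚ d ModularCurve.jq)}

theorem gen11Gens_subset (N : ℕ) [NeZero N] :
    gen11Gens N ⊆ (ModularCurve.modularFunctionFieldBar N : Set (LaurentSeries (AlgebraicClosure ℚ))) := by
  rintro x ⟨d, hd, hdN, rfl⟩
  exact ModularCurve.coeffEmb_mem_laurentBaseChange _ (ModularCurve.jqd_mem_full N hdN)

/-- `coeffEmb` maps the full rational function field into the field generated over `ℚ̄` by the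
`j(q^d)`. -/
theorem gen11_coeffEmb_mem (N : ℕ) [NeZero N] {x : LaurentSeries ℚ}
    (hx : x ∈ ModularCurve.modularFunctionFieldFull N) :
    ModularCurve.coeffEmb (AlgebraicClosure ℚ) x ∈
      IntermediateField.adjoin (AlgebraicClosure ℚ) (gen11Gens N) := by
  have hle : (ModularCurve.modularFunctionFieldFull N).toSubfield ≤
      (IntermediateField.adjoin (AlgebraicClosure ℚ) (gen11Gens N)).toSubfield.comap
        (ModularCurve.coeffEmb (AlgebraicClosure ℚ)) := by
    rw [ModularCurve.modularFunctionFieldFull, IntermediateField.adjoin_toSubfield,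
      Subfield.closure_le]
    rintro y (⟨c, rfl⟩ | ⟨d, hd, hdN, rfl⟩)
    · show ModularCurve.coeffEmb (AlgebraicClosure ℚ) (algebraMap ℚ (LaurentSeries ℚ) c) ∈
        IntermediateField.adjoin (AlgebraicClosure ℚ) (gen11Gens N)
      rw [RingHom.map_rat_algebraMap, eq_ratCast]
      exact SubfieldClass.ratCast_mem _ c
    · show ModularCurve.coeffEmb (AlgebraicClosure ℚ) (ModularCurve.qExpand ℚ d ModularCurve.jq) ∈
        IntermediateField.adjoin (AlgebraicClosure ℚ) (gen11Gens N)
      exact IntermediateField.subset_adjoin _ _ ⟨d, hd, hdN, rfl⟩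
  exact hle hx

theorem gen11_bar_eq_adjoin (N : ℕ) [NeZero N] :
    ModularCurve.modularFunctionFieldBar N =
      IntermediateField.adjoin (AlgebraicClosure ℚ) (gen11Gens N) := by
  apply le_antisymm
  · show ModularCurve.laurentBaseChange _ _ ≤ _
    rw [ModularCurve.laurentBaseChange, IntermediateField.adjoin_le_iff]
    rintro _ ⟨x, hx, rfl⟩
    exact gen11_coeffEmb_mem N hx
  · rw [IntermediateField.adjoin_le_iff]
    exact gen11Gens_subset N

theorem gen11_map_Rsub (N : ℕ) [NeZero N] :
    (Rsub N).map (IntermediateField.val (ModularCurve.modularFunctionFieldBar N)) =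
      Algebra.adjoin (AlgebraicClosure ℚ) (gen11Gens N) := by
  rw [Rsub, AlgHom.map_adjoin]
  congr 1
  ext x
  constructor
  · rintro ⟨_, ⟨d, hd, hdN, rfl⟩, rfl⟩
    exact ⟨d, hd, hdN, rfl⟩
  · rintro ⟨d, hd, hdN, rfl⟩
    exact ⟨jBarD N d hdN, ⟨d, hd, hdN, rfl⟩, rfl⟩

/-- **GEN-11 (4)**: every element of the function field is a quotient of elements of `Rsub N`. -/
theorem exists_frac_Rsub (N : ℕ) [NeZero N] :
    ∀ f : ↥(ModularCurve.modularFunctionFieldBar N), ∃ r s : ↥(Rsub N), s ≠ 0 ∧
      f * (s : ↥(ModularCurve.modularFunctionFieldBar N)) = r := by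
  intro f
  have hf : (f : LaurentSeries (AlgebraicClosure ℚ)) ∈
      IntermediateField.adjoin (AlgebraicClosure ℚ) (gen11Gens N) := by
    rw [← gen11_bar_eq_adjoin]; exact f.2
  obtain ⟨r, hr, s, hs, hfrs⟩ := IntermediateField.mem_adjoin_iff_div.mp hf
  rw [← gen11_map_Rsub] at hr hs
  obtain ⟨r', hr', rfl⟩ := hr
  obtain ⟨s', hs', rfl⟩ := hs
  by_cases hs0 : s' = 0
  · refine ⟨0, 1, one_ne_zero, ?_⟩
    have hf0 : f = 0 := by
      apply Subtype.ext
      rw [hfrs, hs0]
      simp
    rw [hf0]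
    simp
  · refine ⟨⟨r', hr'⟩, ⟨s', hs'⟩, ?_, ?_⟩
    · intro h
      exact hs0 (congrArg Subtype.val h)
    · apply Subtype.ext
      have hs1 : (s' : LaurentSeries (AlgebraicClosure ℚ)) ≠ 0 := by
        intro h
        exact hs0 (Subtype.ext h)
      have hfrs' : (f : LaurentSeries (AlgebraicClosure ℚ)) =
          (r' : LaurentSeries (AlgebraicClosure ℚ)) / (s' : LaurentSeries (AlgebraicClosure ℚ)) :=
        hfrs
      show (f : LaurentSeries (AlgebraicClosure ℚ)) * (s' : LaurentSeries (AlgebraicClosure ℚ)) =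
        (r' : LaurentSeries (AlgebraicClosure ℚ))
      rw [hfrs', div_mul_cancel₀ _ hs1]

end Fermat.Agent.H60

end
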